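import Fermat.Agent.ArtinConductor.Conductor

/-!
# The conductor of a linear character with integral upper jumps

When `G ^ t` depends only on `⌈t⌉` the Artin conductor of a linear character is the least `n` with
the character trivial on `G ^ n`.
-/

set_option autoImplicit false

noncomputable section

namespace Fermat.Agent.ArtinConductor

open HasseArf Module

variable {G L : Type*} [Group G] [Field L] [MulSemiringAction G L]

/-- A linear character as a representation. -/
def linearRep (χ : G →* ℂˣ) : Representation ℂ G ℂ :=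
  (Algebra.lsmul ℂ ℂ ℂ).toMonoidHom.comp ((Units.coeHom ℂ).comp χ)

theorem linearRep_apply (χ : G →* ℂˣ) (g : G) (z : ℂ) : linearRep χ g z = (χ g : ℂ) * z := rfl

theorem finrank_invariants_linearRep (χ : G →* ℂˣ) (S : Subgroup G) [Decidable (S ≤ χ.ker)] :
    finrank ℂ (Representation.invariants
      ((linearRep χ).comp S.subtype : Representation ℂ S ℂ)) = if S ≤ χ.ker then 1 else 0 := by
  split_ifs with h
  · rw [show Representation.invariants ((linearRep χ).comp S.subtype : Representation ℂ S ℂ) = ⊤
      from eq_top_iff.2 fun z _ g => by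
        change linearRep χ (g : G) z = z
        rw [linearRep_apply, MonoidHom.mem_ker.1 (h g.2), Units.val_one, one_mul],
      finrank_top, finrank_self]
  · obtain ⟨g, hg, hne⟩ := SetLike.not_le_iff_exists.1 h
    rw [show Representation.invariants ((linearRep χ).comp S.subtype : Representation ℂ S ℂ) = ⊥
      from eq_bot_iff.2 fun z hz => by
        have h1 : linearRep χ g z = z := hz ⟨g, hg⟩
        rw [linearRep_apply, mul_left_eq_self₀] at h1
        rcases h1 with h1 | h1
        · exact absurd (Units.ext h1) hne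
        · exact h1,
      finrank_bot]

variable (v : AddValuation L (WithTop ℤ)) (hv : ∀ (g : G) (x : L), v (g • x) = v x)

theorem upperGroup_antitone {s t : ℝ} (h : s ≤ t) : upperGroup v hv t ≤ upperGroup v hv s :=
  iSup₂_le fun u hu => le_iSup₂_of_le u ⟨hu.1, h.trans hu.2⟩ le_rfl

variable [Finite G]

/-- **The conductor of a linear character** is the least `n` such that it is trivial on `G ^ n`. -/
theorem artinConductor_linearRep (χ : G →* ℂˣ)
    (hceil : ∀ t : ℝ, 0 ≤ t → upperGroup v hv t = upperGroup v hv (⌈t⌉₊ : ℝ))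
    (hfin : ∃ N : ℕ, upperGroup v hv (N : ℝ) ≤ χ.ker) :
    ∃ N : ℕ, artinConductor v hv (linearRep χ) = N ∧
      ∀ n : ℕ, N ≤ n ↔ upperGroup v hv (n : ℝ) ≤ χ.ker := by
  classical
  have hφ0 : herbrandPhi v hv 0 = 0 := by simp [herbrandPhi]
  have hup0 : upperGroup v hv 0 = lowerGroup v hv 0 := by
    rw [← hφ0, upperGroup_herbrandPhi v hv le_rfl, lowerGroupReal, Nat.ceil_zero]
  have hP : ∃ i, lowerGroup v hv i ≤ χ.ker := by
    obtain ⟨N, hN⟩ := hfin
    obtain ⟨u, hu, hφ⟩ := exists_herbrandPhi_eq v hv (Nat.cast_nonneg (α := ℝ) N)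
    rw [← hφ, upperGroup_herbrandPhi v hv hu] at hN
    exact ⟨_, hN⟩
  set m := Nat.find hP with hm
  have hiff : ∀ i, lowerGroup v hv i ≤ χ.ker ↔ m ≤ i := fun i =>
    ⟨fun h => Nat.find_min' hP h, fun h => (lowerGroup_antitone v hv h).trans (Nat.find_spec hP)⟩
  have hcond : artinConductor v hv (linearRep χ) = ∑ i ∈ Finset.range m,
      (Nat.card (lowerGroup v hv i) : ℚ) / Nat.card (lowerGroup v hv 0) := by
    have hterm : ∀ i, (Nat.card (lowerGroup v hv i) : ℚ) / Nat.card (lowerGroup v hv 0) *
        ((finrank ℂ ℂ : ℚ) - finrank ℂ (Representation.invariants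
          ((linearRep χ).comp (lowerGroup v hv i).subtype :
            Representation ℂ (lowerGroup v hv i) ℂ))) =
        if i < m then (Nat.card (lowerGroup v hv i) : ℚ) / Nat.card (lowerGroup v hv 0) else 0 := by
      intro i
      rw [finrank_invariants_linearRep χ, finrank_self]
      by_cases h : i < m
      · rw [if_pos h, if_neg fun h' => absurd ((hiff i).1 h') (not_le.2 h)]
        norm_num
      · rw [if_neg h, if_pos ((hiff i).2 (not_lt.1 h)), sub_self, mul_zero]
    rw [artinConductor, finsum_congr hterm,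
      finsum_eq_sum_of_support_subset _ (s := Finset.range m) (fun i hi => by
        rw [Finset.coe_range, Set.mem_Iio]
        by_contra h
        exact hi (if_neg h))]
    exact Finset.sum_congr rfl fun i hi => if_pos (Finset.mem_range.1 hi)
  rcases Nat.eq_zero_or_pos m with h0 | hpos
  · refine ⟨0, by rw [hcond, h0, Finset.sum_range_zero, Nat.cast_zero], fun n =>
      ⟨fun _ => ?_, fun _ => Nat.zero_le n⟩⟩
    exact (upperGroup_antitone v hv (Nat.cast_nonneg n)).trans
      (hup0 ▸ (hiff 0).2 h0.le)
  obtain ⟨c, hc⟩ := Nat.exists_eq_succ_of_ne_zero hpos.ne'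
  set F := herbrandPhi v hv (c : ℝ) with hF
  have hF0 : 0 ≤ F := by
    rw [hF, ← hφ0, ← Nat.cast_zero]
    exact herbrandPhi_natCast_mono v hv c.zero_le
  have hnot : ¬ upperGroup v hv F ≤ χ.ker := by
    rw [hF, upperGroup_herbrandPhi v hv (Nat.cast_nonneg c), lowerGroupReal, Nat.ceil_natCast, hiff]
    omega
  have habove : ∀ t, F < t → upperGroup v hv t ≤ χ.ker := fun t ht => by
    obtain ⟨u, hu, rfl⟩ := exists_herbrandPhi_eq v hv (hF0.trans ht.le)
    rw [upperGroup_herbrandPhi v hv hu, lowerGroupReal, hiff, hc, Nat.succ_le_iff, Nat.lt_ceil]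
    by_contra! hle
    rcases hle.eq_or_lt with he | hlt
    · rw [he] at ht; exact lt_irrefl _ ht
    · exact lt_asymm ht (herbrandPhi_lt v hv hu hlt)
  have hFz : F = (⌈F⌉₊ : ℝ) := (Nat.le_ceil F).eq_or_lt.resolve_right fun h => hnot (by
    rw [hceil F hF0]
    exact habove _ h)
  refine ⟨⌈F⌉₊ + 1, ?_, fun n => ⟨fun hn => habove _ ?_, fun hn => ?_⟩⟩
  · refine Rat.cast_injective (α := ℝ) ?_
    rw [hcond, hc, Finset.sum_range_succ', Rat.cast_natCast, Nat.cast_succ, ← hFz, hF,
      herbrandPhi_natCast, div_self (Nat.cast_ne_zero.2 Nat.card_pos.ne')]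
    push_cast
    rfl
  · rw [hFz]
    exact_mod_cast hn
  · by_contra! hlt
    refine hnot ((upperGroup_antitone v hv ?_).trans hn)
    rw [hFz]
    exact_mod_cast Nat.lt_succ_iff.1 hlt

end Fermat.Agent.ArtinConductor
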