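import Fermat.Agent.LubinTate.Ramification.Reciprocity
import Fermat.Agent.LubinTate.Ramification.LinearConductor

/-!
# The Artin conductor of an abelian character is its local conductor

For a linear character of the group of a finite abelian extension of a completion the Artin
conductor is the least `n` such that its composite with the reciprocity map is trivial on `U ^ (n)`.
-/

set_option autoImplicit false
set_option linter.unusedSectionVars false

noncomputable section

open NumberField IsDedekindDomain IsLocalRing
open FA.LocalCFT
open scoped Valued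

namespace Fermat.Agent.LubinTate

universe u

attribute [local instance] FA.QuadFormsNF.charZero_completion
attribute [local instance] isGalois_subAb normal_subAb

variable {K : Type u} [Field K] [NumberField K] {v : HeightOneSpectrum (𝓞 K)}

/-- **The Artin conductor of a linear character is the conductor of its composite with the
reciprocity map.** -/
theorem artinConductor_eq_localConductor
    (E : IntermediateField (v.adicCompletion K) (abClosure (v.adicCompletion K)))
    [FiniteDimensional (v.adicCompletion K) E] (w : AddValuation E (WithTop ℤ))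
    (hint : ∀ y, 0 ≤ w y ↔ IsIntegral (v.adicCompletionIntegers K) y)
    (hone : ∃ y, w y = ((1 : ℤ) : WithTop ℤ))
    (hw : ∀ (σ : E ≃ₐ[v.adicCompletion K] E) y, w (σ • y) = w y)
    {π : v.adicCompletionIntegers K} (hπ : Irreducible π)
    (χ : (E ≃ₐ[v.adicCompletion K] E) →* ℂˣ) :
    ∃ N : ℕ, ArtinConductor.artinConductor w hw (ArtinConductor.linearRep χ) = N ∧
      ∀ n : ℕ, N ≤ n ↔ ∀ u ∈ higherUnits π n, χ (unitArtin E u) = 1 := by
  have hup : ∀ n : ℕ, HasseArf.upperGroup w hw (n : ℝ) =
      (higherUnits π n).map (unitArtin E) := fun n => by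
    rw [upperGroup_eq_map_unitArtin w hint hone hw hπ (Nat.cast_nonneg n), Nat.ceil_natCast]
  have hiff : ∀ n : ℕ, HasseArf.upperGroup w hw (n : ℝ) ≤ χ.ker ↔
      ∀ u ∈ higherUnits π n, χ (unitArtin E u) = 1 := fun n => by
    rw [hup, Subgroup.map_le_iff_le_comap]
    rfl
  obtain ⟨k, hk⟩ := exists_higherUnits_le hπ (isOpen_normGroup v E)
  obtain ⟨N, hN, hN'⟩ := ArtinConductor.artinConductor_linearRep w hw χ
    (fun t ht => upperGroup_ceil w hint hone hw ht) ⟨k + 1, le_of_eq_of_le
      ((upperGroup_eq_bot_iff w hint hone hw hπ (k + 1)).2 (by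
        rintro _ ⟨u, hu, rfl⟩
        exact hk u (mem_higherUnits.1 hu))) bot_le⟩
  exact ⟨N, hN, fun n => (hN' n).trans (hiff n)⟩

end Fermat.Agent.LubinTate
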