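import Fermat.Agent.LubinTate.Ramification.Numbering
import Fermat.Agent.LubinTate.NormOperator.NormGroup

/-!
# The upper numbering of an explicit layer

`φ (q ^ n - 1) = n` for `n ≤ k`, and the upper ramification group of index `w` is the image of
`U ^ (⌈w⌉)`.
-/

set_option autoImplicit false
set_option linter.unusedSectionVars false

noncomputable section

open Polynomial IsLocalRing IntermediateField

namespace Fermat.Agent.LubinTate

variable {O : Type*} [CommRing O] {π : O}

theorem higherUnits_zero (π : O) : higherUnits π 0 = ⊤ :=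
  eq_top_iff.2 fun u _ => mem_higherUnits.2 (by rw [pow_zero, Ideal.span_singleton_one]; trivial)

theorem higherUnits_anti {a b : ℕ} (h : a ≤ b) : higherUnits π b ≤ higherUnits π a := fun u hu => by
  rw [mem_higherUnits] at hu ⊢
  exact Ideal.span_singleton_le_span_singleton.2 (pow_dvd_pow π h) hu

variable [IsDomain O] [IsDiscreteValuationRing O] [Finite (ResidueField O)]

theorem index_higherUnits (hπ : Irreducible π) (n : ℕ) :
    (higherUnits π (n + 1)).index = residueCard O ^ n * (residueCard O - 1) := by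
  have hψ : Function.Surjective
      (Units.map (Ideal.Quotient.mk (Ideal.span {π ^ (n + 1)})).toMonoidHom) :=
    IsLocalRing.surjective_units_map_of_local_ringHom _ Ideal.Quotient.mk_surjective
      (isLocalHom_quotient hπ n)
  rw [higherUnits, Subgroup.index, Nat.card_congr (QuotientGroup.quotientKerEquivOfSurjective _
    hψ).toEquiv, card_units_quotient hπ]
  rfl

variable [IsAdicComplete (maximalIdeal O) O] {K : Type*} [Field K] [Algebra O K]
  [IsFractionRing O K] {E : Type*} [Field E] [Algebra O E] [Algebra K E] [IsScalarTower O K E]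
  {k : ℕ} {f : O[X]} {ν : AbsoluteValue E ℝ} {lam x₀ : E}
  (hπ : Irreducible π) (hl : IsExplicitLayer K π k f ν lam x₀) [IsGalois K E]
include hπ hl

/-- The kernel of the action is `U ^ (k + 1)`. -/
theorem ker_layerAut : (layerAut hπ hl).ker = higherUnits π (k + 1) := by
  ext u
  rw [MonoidHom.mem_ker, mem_higherUnits]
  refine ⟨fun h => by_contra fun htop => ?_, layerAut_eq_one hπ hl⟩
  have hne : (u : O) - 1 ≠ 0 := fun h' => htop (by rw [h']; exact zero_mem _)
  obtain ⟨j, w, hw⟩ := IsDiscreteValuationRing.eq_unit_mul_pow_irreducible hne hπ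
  have hj : j ≤ k := by
    by_contra! hjk
    refine htop (Ideal.mem_span_singleton.2 ?_)
    rw [hw]
    exact (pow_dvd_pow π (by omega)).mul_left _
  have h' := absVal_layerAut_sub hπ hl hj w.isUnit hw
  rw [h, AlgEquiv.one_apply, sub_self, map_zero] at h'
  exact (pow_pos (absVal_lam_pos hπ hl) _).ne h'

theorem map_higherUnits_eq_bot {n : ℕ} (hn : k + 1 ≤ n) :
    (higherUnits π n).map (layerAut hπ hl) = ⊥ := by
  rw [Subgroup.map_eq_bot_iff, ker_layerAut]
  exact higherUnits_anti hn

theorem card_map_higherUnits {n : ℕ} (hn : n ≤ k + 1) :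
    (higherUnits π n).index * Nat.card ((higherUnits π n).map (layerAut hπ hl)) =
      torsionDegree O k := by
  have h : Nat.card ((higherUnits π n).map (layerAut hπ hl)) =
      (higherUnits π (k + 1)).relIndex (higherUnits π n) := by
    rw [← ker_layerAut hπ hl, Subgroup.relIndex_ker]
  rw [h, mul_comm, Subgroup.relIndex_mul_index (higherUnits_anti hn), index_higherUnits hπ,
    torsionDegree]

local notation "φH" => HasseArf.herbrandPhi (layerVal hπ hl) (layerVal_invariant hπ hl)

/-- **Herbrand's function at `q ^ n - 1`.** -/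
theorem herbrandPhi_layer {n : ℕ} (hn : n ≤ k) :
    φH ((residueCard O ^ n - 1 : ℕ) : ℝ) = n := by
  have := finiteDimensional_layer hπ hl
  have hq := (isLubinTateBase hπ).two_le
  set q := residueCard O
  induction n with
  | zero => simp [HasseArf.herbrandPhi]
  | succ n ih =>
    have hstep : q ^ (n + 1) - 1 = (q ^ n - 1) + q ^ n * (q - 1) := by
      have h1 : 1 ≤ q ^ n := Nat.one_le_pow _ _ (by omega)
      have h2 : q ^ n ≤ q ^ n * q := Nat.le_mul_of_pos_right _ (by omega)
      rw [pow_succ, Nat.mul_sub, mul_one]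
      omega
    rw [HasseArf.herbrandPhi_natCast, hstep, Finset.sum_range_add,
      ← HasseArf.herbrandPhi_natCast, ih (by omega), Nat.cast_succ, add_right_inj]
    have hcard : ∀ t ∈ Finset.range (q ^ n * (q - 1)),
        HasseArf.slope (layerVal hπ hl) (layerVal_invariant hπ hl) (q ^ n - 1 + t) =
          1 / ((q ^ n * (q - 1) : ℕ) : ℝ) := by
      intro t ht
      have h1 : 1 ≤ q ^ n := Nat.one_le_pow _ _ (by omega)
      have h2 : q ^ n ≤ q ^ n * q := Nat.le_mul_of_pos_right _ (by omega)
      have hclog : Nat.clog q (q ^ n - 1 + t + 1 + 1) = n + 1 := by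
        refine le_antisymm ((Nat.clog_le_iff_le_pow (by omega)).2 ?_)
          ((Nat.lt_clog_iff_pow_lt (by omega)).2 (by omega))
        rw [Finset.mem_range, Nat.mul_sub, mul_one] at ht
        rw [pow_succ]
        omega
      rw [HasseArf.slope, lowerGroup_eq, lowerGroup_eq, hclog, zero_add, Nat.clog_one_right]
      have h3 := card_map_higherUnits hπ hl (n := n + 1) (by omega)
      have h4 := card_map_higherUnits hπ hl (n := 0) (by omega)
      rw [higherUnits_zero, Subgroup.index_top, one_mul] at h4
      rw [index_higherUnits hπ, ← h4, ← higherUnits_zero π] at h3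
      have hD : (0 : ℝ) < Nat.card ((higherUnits π 0).map (layerAut hπ hl)) := by
        exact_mod_cast Nat.card_pos
      have hQ : (0 : ℝ) < ((q ^ n * (q - 1) : ℕ) : ℝ) := by
        exact_mod_cast Nat.mul_pos h1 (by omega)
      rw [div_eq_div_iff hD.ne' hQ.ne', one_mul, mul_comm]
      exact_mod_cast h3
    rw [Finset.sum_congr rfl hcard, Finset.sum_const, Finset.card_range, nsmul_eq_mul,
      mul_one_div, div_self]
    exact_mod_cast (Nat.mul_pos (Nat.one_le_pow n q (by omega)) (by omega)).ne'

/-- **The upper numbering.** -/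
theorem upperGroup_eq {w : ℝ} (hw : 0 ≤ w) :
    HasseArf.upperGroup (layerVal hπ hl) (layerVal_invariant hπ hl) w =
      (higherUnits π ⌈w⌉₊).map (layerAut hπ hl) := by
  have := finiteDimensional_layer hπ hl
  have hq := (isLubinTateBase hπ).two_le
  obtain ⟨u, hu, rfl⟩ := HasseArf.exists_herbrandPhi_eq (layerVal hπ hl)
    (layerVal_invariant hπ hl) hw
  rw [HasseArf.upperGroup_herbrandPhi _ _ hu, HasseArf.lowerGroupReal, lowerGroup_eq]
  have hmono : ∀ {a : ℝ}, 0 ≤ a → φH a < φH u → a < u := fun {a} ha h => by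
    by_contra! hle
    rcases hle.eq_or_lt with he | hlt
    · rw [he] at h; exact lt_irrefl _ h
    · exact lt_asymm h (HasseArf.herbrandPhi_lt _ _ hu hlt)
  by_cases hnk : ⌈φH u⌉₊ ≤ k
  · have hub : ⌈u⌉₊ ≤ residueCard O ^ ⌈φH u⌉₊ - 1 := by
      rw [Nat.ceil_le]
      by_contra! hlt
      have h := HasseArf.herbrandPhi_lt (layerVal hπ hl) (layerVal_invariant hπ hl)
        (Nat.cast_nonneg _) hlt
      rw [herbrandPhi_layer hπ hl hnk] at h
      exact absurd (Nat.le_ceil (φH u)) (not_le.2 h)
    congr 2
    rcases Nat.eq_zero_or_pos ⌈φH u⌉₊ with h0 | h0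
    · rw [h0, pow_zero] at hub
      rw [h0, show ⌈u⌉₊ = 0 by omega, zero_add, Nat.clog_one_right]
    · obtain ⟨n, hn⟩ := Nat.exists_eq_succ_of_ne_zero h0.ne'
      rw [hn, Nat.succ_eq_add_one] at hub hnk ⊢
      have h1 : 1 ≤ residueCard O ^ n := Nat.one_le_pow _ _ (by omega)
      have h2 : 1 ≤ residueCard O ^ (n + 1) := Nat.one_le_pow _ _ (by omega)
      have hlb : residueCard O ^ n - 1 < ⌈u⌉₊ := by
        rw [Nat.lt_ceil]
        refine hmono (Nat.cast_nonneg _) ?_
        rw [herbrandPhi_layer hπ hl (by omega)]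
        exact Nat.lt_ceil.1 (by omega)
      exact le_antisymm ((Nat.clog_le_iff_le_pow (by omega)).2
        (by omega))
        ((Nat.lt_clog_iff_pow_lt (by omega)).2 (by omega))
  · rw [not_le] at hnk
    rw [map_higherUnits_eq_bot hπ hl (n := ⌈φH u⌉₊) (by omega), map_higherUnits_eq_bot hπ hl]
    refine (Nat.lt_clog_iff_pow_lt (by omega)).2 ?_
    have h1 : 1 ≤ residueCard O ^ k := Nat.one_le_pow _ _ (by omega)
    have hlb : residueCard O ^ k - 1 < ⌈u⌉₊ := by
      rw [Nat.lt_ceil]
      refine hmono (Nat.cast_nonneg _) ?_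
      rw [herbrandPhi_layer hπ hl le_rfl]
      exact Nat.lt_ceil.1 hnk
    omega

end Fermat.Agent.LubinTate
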