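import Fermat.Agent.LubinTate.Reciprocity.Main
import Fermat.Agent.LubinTate.Ramification.Upper

/-!
# The explicit layers of a completion and the reciprocity map

Every finite abelian extension of a completion lies in an explicit layer inside the maximal
abelian extension, and the image of a unit `u` acts on the layer as `layerAut u⁻¹`.
-/

set_option autoImplicit false
set_option linter.unusedSectionVars false

noncomputable section

open NumberField IsDedekindDomain IsLocalRing WithZero Polynomial IntermediateField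
open FA.LocalCFT
open scoped Valued

namespace Fermat.Agent.LubinTate

universe u

attribute [local instance] FA.QuadFormsNF.charZero_completion

variable {K : Type u} [Field K] [NumberField K] {v : HeightOneSpectrum (𝓞 K)}

local notation "Kv" => HeightOneSpectrum.adicCompletion K v
local notation "Ov" => HeightOneSpectrum.adicCompletionIntegers K v
local notation "AC" => AlgebraicClosure (HeightOneSpectrum.adicCompletion K v)
local notation "Ab" => abClosure (HeightOneSpectrum.adicCompletion K v)

theorem isAbelianGalois_subAb (E : IntermediateField Kv Ab) : IsAbelianGalois Kv E :=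
  IsAbelianGalois.tower_bot Kv E Ab

theorem isGalois_subAb (E : IntermediateField Kv Ab) : IsGalois Kv E :=
  (isAbelianGalois_subAb E).toIsGalois

theorem normal_subAb (E : IntermediateField Kv Ab) : Normal Kv E :=
  have := isGalois_subAb E
  inferInstance

attribute [local instance] isGalois_subAb normal_subAb

/-- **The reciprocity map on the units, on a subextension.** -/
def unitArtin (E : IntermediateField Kv Ab) : Ovˣ →* (E ≃ₐ[Kv] E) :=
  ((AlgEquiv.restrictNormalHom E).comp (localAbArtin v)).comp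
    (Units.map (algebraMap Ov Kv).toMonoidHom)

theorem coe_unitArtin (E : IntermediateField Kv Ab) (u : Ovˣ) (y : E) :
    (unitArtin E u y : Ab) =
      localAbArtin v (Units.map (algebraMap Ov Kv).toMonoidHom u) (y : Ab) :=
  AlgEquiv.restrictNormal_commutes _ E y

theorem valued_unit (u : Ovˣ) :
    Valued.v ((Units.map (algebraMap Ov Kv).toMonoidHom u : Kvˣ) : Kv) = exp (-((0 : ℕ) : ℤ)) := by
  rw [Nat.cast_zero, neg_zero, exp_zero]
  have h1 : Valued.v ((u : Ov) : Kv) ≤ 1 :=
    (HeightOneSpectrum.mem_adicCompletionIntegers (𝓞 K) K v).1 (u : Ov).2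
  have h2 : Valued.v (((u⁻¹ : Ovˣ) : Ov) : Kv) ≤ 1 :=
    (HeightOneSpectrum.mem_adicCompletionIntegers (𝓞 K) K v).1 ((u⁻¹ : Ovˣ) : Ov).2
  refine le_antisymm h1 (not_lt.1 fun hlt => ?_)
  have h3 : Valued.v ((u : Ov) : Kv) * Valued.v (((u⁻¹ : Ovˣ) : Ov) : Kv) = 1 := by
    rw [← map_mul, ← MulMemClass.coe_mul, Units.mul_inv, OneMemClass.coe_one, map_one]
  exact absurd h3 ((mul_le_of_le_one_right' h2).trans_lt hlt).ne

/-- An unramified generator lies in the maximal abelian extension, is fixed by the images of the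
units, and its field contains the roots of unity. -/
theorem exists_unramified_point {π : Ov} (hπ : Irreducible π) {f : Ov[X]} (hf : f.Monic)
    (hirr : Irreducible (f.map (residue Ov))) :
    ∃ x : Ab, aeval x f = 0 ∧
      (∀ y : AC, y ^ (residueCard Ov ^ f.natDegree - 1) = 1 →
        y ∈ IntermediateField.lift Kv⟮x⟯) ∧
      ∀ u : Ovˣ, localAbArtin v (Units.map (algebraMap Ov Kv).toMonoidHom u) x = x := by
  have hm := natDegree_pos_of_irreducible hf hirr
  set N := residueCard Ov ^ f.natDegree - 1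
  have hN : NeZero N := ⟨by
    have := (isLubinTateBase hπ).two_le.trans (Nat.le_self_pow hm.ne' (residueCard Ov)); omega⟩
  obtain ⟨x₀, hx₀⟩ := IsAlgClosed.exists_aeval_eq_zero AC (f.map (algebraMap Ov Kv))
    (by rw [degree_eq_natDegree (hf.map _).ne_zero, hf.natDegree_map]; exact_mod_cast hm.ne')
  rw [aeval_map_algebraMap] at hx₀
  have hint : IsIntegral Kv x₀ := IsIntegral.tower_top (R := Ov) ⟨f, hf, hx₀⟩
  have hcyc : IsCyclotomicExtension {N} Kv Kv⟮x₀⟯ := by
    refine isCyclotomicExtension_unramified hf hirr Kv⟮x₀⟯ (AdjoinSimple.gen Kv x₀) ?_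
      (IntermediateField.adjoin.powerBasis hint).adjoin_gen_eq_top hπ
    refine (Kv⟮x₀⟯.val.restrictScalars Ov).toRingHom.injective ?_
    rw [map_zero]
    change (Kv⟮x₀⟯.val.restrictScalars Ov) _ = 0
    rw [← aeval_algHom_apply]
    exact hx₀
  have hfd : FiniteDimensional Kv Kv⟮x₀⟯ := IntermediateField.adjoin.finiteDimensional hint
  have hle : Kv⟮x₀⟯ ≤ Ab :=
    le_abClosure hfd (IsCyclotomicExtension.isAbelianGalois {N} _ _)
  set x : Ab := ⟨x₀, hle (mem_adjoin_simple_self Kv x₀)⟩
  obtain ⟨ζ, hζ⟩ := hcyc.exists_isPrimitiveRoot (Set.mem_singleton N) hN.out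
  let ι : Kv⟮x₀⟯ →ₐ[Kv] Ab := IntermediateField.inclusion hle
  refine ⟨x, ?_, fun y hy => ?_, fun u => ?_⟩
  · refine ((Ab).val.restrictScalars Ov).toRingHom.injective ?_
    rw [map_zero]
    change ((Ab).val.restrictScalars Ov) _ = 0
    rw [← aeval_algHom_apply]
    exact hx₀
  · rw [lift_adjoin_simple]
    have hζ' := hζ.map_of_injective (f := Kv⟮x₀⟯.val) Subtype.val_injective
    obtain ⟨i, -, rfl⟩ := hζ'.eq_pow_of_pow_eq_one hy
    exact pow_mem ζ.2 i
  · set g := localAbArtin v (Units.map (algebraMap Ov Kv).toMonoidHom u)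
    suffices h : g.toAlgHom.comp ι = ι from DFunLike.congr_fun h (AdjoinSimple.gen Kv x₀)
    refine (hζ.powerBasis Kv).algHom_ext ?_
    rw [IsPrimitiveRoot.powerBasis_gen]
    change g (ι ζ) = ι ζ
    have h1 : ι ζ ^ (residueCard Ov ^ f.natDegree - 1) = 1 := by
      rw [← map_pow, hζ.pow_eq_one, map_one]
    rw [localAbArtin_rootOfUnity_pow (v := v) (i := 0) (valued_unit u) hm h1, pow_zero, pow_one]

/-- A generator of exact level inside the maximal abelian extension. -/
theorem exists_torsion_point {π : Ov} (hπ : Irreducible π) (k : ℕ) :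
    ∃ y : Ab, aeval y (torsionPoly π k) = 0 := by
  obtain ⟨y, hy⟩ := IsAlgClosed.exists_aeval_eq_zero AC
    ((torsionPoly π k).map (algebraMap Ov Kv)) (by
      rw [degree_eq_natDegree ((torsionPoly_facts hπ k).1.map _).ne_zero,
        (torsionPoly_facts hπ k).1.natDegree_map, (torsionPoly_facts hπ k).2.1]
      exact_mod_cast (torsionDegree_pos hπ k).ne')
  rw [aeval_map_algebraMap] at hy
  have hmem : y ∈ Ab := by
    rw [abClosure_explicit hπ (πK := Units.mk0 _
      ((map_ne_zero_iff _ (IsFractionRing.injective Ov Kv)).2 hπ.ne_zero)) rfl]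
    refine IntermediateField.subset_adjoin _ _ (Or.inl ⟨k, ?_⟩)
    rw [aeval_map_algebraMap, iterPoly_succ (by have := (isLubinTateBase hπ).two_le; omega),
      map_mul]
    rw [show aeval y (levelPoly π (residueCard Ov) k) = 0 from hy, mul_zero]
  refine ⟨⟨y, hmem⟩, ((Ab).val.restrictScalars Ov).toRingHom.injective ?_⟩
  rw [map_zero]
  change ((Ab).val.restrictScalars Ov) _ = 0
  rw [← aeval_algHom_apply]
  exact hy

/-- **Every finite subextension lies in an explicit layer**, on which a unit `u` acts as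
`layerAut u⁻¹`. -/
theorem exists_layer_ge {π : Ov} (hπ : Irreducible π) (E : IntermediateField Kv Ab)
    [FiniteDimensional Kv E] :
    ∃ (B : IntermediateField Kv Ab) (k : ℕ) (f : Ov[X]) (ν : AbsoluteValue B ℝ) (lam x₀ : B)
      (hl : IsExplicitLayer Kv π k f ν lam x₀),
      E ≤ B ∧ ∀ u : Ovˣ, unitArtin B u = layerAut hπ hl u⁻¹ := by
  set πK := Units.mk0 _ ((map_ne_zero_iff _ (IsFractionRing.injective Ov Kv)).2 hπ.ne_zero)
    with hπKdef
  have := isAbelianGalois_subAb E
  let eE := (IntermediateField.liftAlgEquiv E).symm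
  have : IsAbelianGalois Kv (IntermediateField.lift E) := IsAbelianGalois.of_algHom eE.toAlgHom
  obtain ⟨m, k, hm, ⟨φ⟩⟩ := exists_algHom_explicit hπ (πK := πK) rfl E
  obtain ⟨f₁, hf₁, hirr₁, hdeg₁⟩ := exists_irreducible_natDegree (ResidueField Ov) hm
  obtain ⟨f, hfmap, -, hf⟩ := lifts_and_degree_eq_and_monic
    ((mem_lifts _).2 (Polynomial.map_surjective _ IsLocalRing.residue_surjective f₁)) hf₁
  subst hfmap
  rw [hf.natDegree_map] at hdeg₁
  subst hdeg₁
  obtain ⟨x, hx, hroots, hfix⟩ := exists_unramified_point hπ hf hirr₁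
  obtain ⟨y, hy⟩ := exists_torsion_point hπ k
  set B : IntermediateField Kv Ab := IntermediateField.adjoin Kv {y, x}
  have hyB : y ∈ B := IntermediateField.subset_adjoin _ _ (Set.mem_insert _ _)
  have hxB : x ∈ B := IntermediateField.subset_adjoin _ _ (Set.mem_insert_of_mem _ rfl)
  obtain ⟨μ, hna, hle, hlt, hinv⟩ := exists_absoluteValue (v := v)
  let ν : AbsoluteValue B ℝ := μ.comp (f := ((Ab).val.comp B.val).toRingHom) (RingHom.injective _)
  have hval : ∀ (P : Ov[X]) (z : B), ((aeval z P : B) : Ab) = aeval (z : Ab) P := fun P z =>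
    (aeval_algHom_apply (B.val.restrictScalars Ov) z P).symm
  have hl : IsExplicitLayer Kv π k f ν ⟨y, hyB⟩ ⟨x, hxB⟩ :=
    { aeval_lam := Subtype.ext ((hval _ _).trans hy)
      monic := hf
      irreducible := hirr₁
      aeval_root := Subtype.ext ((hval _ _).trans hx)
      adjoin_eq := by
        apply IntermediateField.lift_injective
        rw [lift_adjoin, lift_top, Set.image_insert_eq, Set.image_singleton]
      nonarch := fun a b => hna _ _
      le_one := fun a => hle a
      lt_one := hlt hπ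
      invariant := fun σ z => by
        obtain ⟨g, rfl⟩ := AlgEquiv.restrictNormalHom_surjective Ab σ
        obtain ⟨τ, rfl⟩ := AlgEquiv.restrictNormalHom_surjective AC g
        change μ ((AlgEquiv.restrictNormalHom B (AlgEquiv.restrictNormalHom Ab τ) z : Ab) : AC) =
          μ ((z : Ab) : AC)
        rw [show ((AlgEquiv.restrictNormalHom B (AlgEquiv.restrictNormalHom Ab τ) z : Ab)) =
          AlgEquiv.restrictNormalHom Ab τ (z : Ab) from AlgEquiv.restrictNormal_commutes _ B z,
          show ((AlgEquiv.restrictNormalHom Ab τ (z : Ab) : Ab) : AC) = τ ((z : Ab) : AC) from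
            AlgEquiv.restrictNormal_commutes τ Ab (z : Ab)]
        exact hinv τ _ }
  refine ⟨B, k, f, ν, ⟨y, hyB⟩, ⟨x, hxB⟩, hl, ?_, ?_⟩
  · -- `E` is generated by roots, all in `B`
    intro e he
    set C := (explicitPoly π f.natDegree k).SplittingField
    let ι : C →ₐ[Kv] AC := IsAlgClosed.lift
    have hrange : ι.fieldRange =
        IntermediateField.adjoin Kv ((explicitPoly π f.natDegree k).rootSet AC) := by
      have htop : IntermediateField.adjoin Kv ((explicitPoly π f.natDegree k).rootSet C) = ⊤ :=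
        eq_top_iff.2 fun z _ => IntermediateField.algebra_adjoin_le_adjoin _ _ (by
          rw [SplittingField.adjoin_rootSet]
          trivial)
      rw [← (SplittingField.splits _).image_rootSet ι, ← IntermediateField.adjoin_map, htop,
        ← AlgHom.fieldRange_eq_map]
    have hE : (ι.comp (φ.comp eE.toAlgHom)).fieldRange = IntermediateField.lift E :=
      AlgHom.fieldRange_of_normal _
    have he' : (e : AC) ∈ IntermediateField.lift E := (IntermediateField.mem_lift e).2 he
    rw [← hE] at he'
    obtain ⟨z, hz⟩ := AlgHom.mem_fieldRange.1 he'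
    have h1 : (e : AC) ∈ ι.fieldRange := AlgHom.mem_fieldRange.2 ⟨_, hz⟩
    rw [hrange] at h1
    refine (IntermediateField.mem_lift e).1 (IntermediateField.adjoin_le_iff.2 ?_ h1)
    intro w hw
    rw [mem_rootSet', explicitPoly, map_mul (aeval w), mul_eq_zero] at hw
    rcases hw.2 with h | h
    · -- torsion
      have hT := isTorsionGenerator_layer hπ hl
      obtain ⟨-, -, hsp⟩ := isSplittingField_torsion hπ k hT
      have hne := ((monic_iterPoly (π := π) (isLubinTateBase hπ).two_le (k + 1)).1.map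
        (algebraMap Ov Kv)).ne_zero
      have hmem : w ∈ ((iterPoly π (residueCard Ov) (k + 1)).map
          (algebraMap Ov Kv)).rootSet AC := by
        rw [mem_rootSet]
        exact ⟨hne, h⟩
      rw [← hsp.splits'.image_rootSet (((Ab).val.comp B.val).comp
        Kv⟮(⟨y, hyB⟩ : B)⟯.val)] at hmem
      obtain ⟨z, -, rfl⟩ := hmem
      exact (IntermediateField.mem_lift _).2 (z : B).2
    · simp only [map_sub, map_pow, aeval_X, map_one, sub_eq_zero] at h
      have hxle : Kv⟮x⟯ ≤ B := adjoin_simple_le_iff.2 hxB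
      obtain ⟨w', hw', rfl⟩ := hroots w h
      exact (IntermediateField.mem_lift _).2 (hxle hw')
  · intro u
    have hT := isTorsionGenerator_layer hπ hl
    let ι : Kv⟮(⟨y, hyB⟩ : B)⟯ →ₐ[Kv] Ab := B.val.comp Kv⟮(⟨y, hyB⟩ : B)⟯.val
    have hlam : unitArtin B u ⟨y, hyB⟩ = layerAut hπ hl u⁻¹ ⟨y, hyB⟩ := by
      refine Subtype.ext ?_
      rw [coe_unitArtin, layerAut_lam]
      have h := localAbArtin_unit_torsion hπ u k hT ι ⟨⟨y, hyB⟩, mem_adjoin_simple_self Kv _⟩
      refine h.trans ?_
      rw [show torsionAut hπ k hT u⁻¹ ⟨⟨y, hyB⟩, mem_adjoin_simple_self Kv _⟩ =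
        torsionPoint hπ k hT ((u⁻¹ : Ovˣ) : Ov) from torsionAlgHom_lam hπ k hT u⁻¹]
      rfl
    have hroot : unitArtin B u ⟨x, hxB⟩ = layerAut hπ hl u⁻¹ ⟨x, hxB⟩ := by
      rw [layerAut_root]
      exact Subtype.ext ((coe_unitArtin B u _).trans (hfix u))
    refine AlgEquiv.ext fun z => ?_
    have hle' : (⊤ : IntermediateField Kv B) ≤
        fixedField (Subgroup.zpowers ((layerAut hπ hl u⁻¹)⁻¹ * unitArtin B u)) := by
      rw [← hl.adjoin_eq, adjoin_le_iff]
      have hfixed : ∀ z : B, unitArtin B u z = layerAut hπ hl u⁻¹ z →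
          z ∈ fixedField (Subgroup.zpowers ((layerAut hπ hl u⁻¹)⁻¹ * unitArtin B u)) := by
        intro z hz g
        refine (Subgroup.zpowers_le.2 (show (layerAut hπ hl u⁻¹)⁻¹ * unitArtin B u ∈
          MulAction.stabilizer (B ≃ₐ[Kv] B) z from ?_) g.2 :)
        rw [MulAction.mem_stabilizer_iff, mul_smul, AlgEquiv.smul_def, AlgEquiv.smul_def, hz,
          ← AlgEquiv.mul_apply, inv_mul_cancel, AlgEquiv.one_apply]
      rintro _ (rfl | rfl)
      exacts [hfixed _ hlam, hfixed _ hroot]
    have h := hle' (IntermediateField.mem_top (x := z)) ⟨_, Subgroup.mem_zpowers _⟩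
    have h' := congrArg (layerAut hπ hl u⁻¹) h
    change (layerAut hπ hl u⁻¹) (((layerAut hπ hl u⁻¹)⁻¹ * unitArtin B u) z) = _ at h'
    rwa [← AlgEquiv.mul_apply, mul_inv_cancel_left] at h'

end Fermat.Agent.LubinTate
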