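import Fermat.Agent.LubinTate.Explicit.Unramified
import Fermat.Agent.LubinTate.Reciprocity.Approximation
import Mathlib.RingTheory.Valuation.Basic
import Mathlib.FieldTheory.IntermediateField.Adjoin.Basic

/-!
# The explicit layers and their valuation

A layer is generated by a point `lam` of exact level `k + 1` and a root `x₀` of a monic `f` which
is irreducible modulo `π`. With an absolute value invariant under the automorphisms the values of
its nonzero elements are the powers of that of `lam`, and the integral elements are the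
combinations of `x₀ ^ i`, `i < deg f`, with coefficients in `O[lam]`.
-/

set_option autoImplicit false
set_option linter.unusedSectionVars false

noncomputable section

open Polynomial IsLocalRing IntermediateField

namespace Fermat.Agent.LubinTate

variable {O : Type*} [CommRing O] [IsDomain O] [IsDiscreteValuationRing O]
  [Finite (ResidueField O)] {π : O}
  {E : Type*} [Field E] [Algebra O E]

/-- **An explicit layer**: the compositum of a torsion and an unramified extension, with an
invariant absolute value. -/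
structure IsExplicitLayer (K : Type*) [Field K] [Algebra O K] [Algebra K E] (π : O) (k : ℕ)
    (f : O[X]) (ν : AbsoluteValue E ℝ) (lam x₀ : E) : Prop where
  aeval_lam : aeval lam (torsionPoly π k) = 0
  monic : f.Monic
  irreducible : Irreducible (f.map (residue O))
  aeval_root : aeval x₀ f = 0
  adjoin_eq : IntermediateField.adjoin K {lam, x₀} = ⊤
  nonarch : IsNonarchimedean ν
  le_one : ∀ a : O, ν (algebraMap O E a) ≤ 1
  lt_one : ν (algebraMap O E π) < 1
  invariant : ∀ (σ : E ≃ₐ[K] E) (x : E), ν (σ x) = ν x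

variable {K : Type*} [Field K] [Algebra O K] [IsFractionRing O K] [Algebra K E]
  [IsScalarTower O K E] {k : ℕ} {f : O[X]} {ν : AbsoluteValue E ℝ} {lam x₀ : E}
  (hπ : Irreducible π) (hl : IsExplicitLayer K π k f ν lam x₀)
include hπ hl

theorem isTorsionGenerator_layer :
    IsTorsionGenerator K π k (⟨lam, mem_adjoin_simple_self K lam⟩ : K⟮lam⟯) := by
  have hint : IsIntegral K lam :=
    IsIntegral.tower_top (R := O) ⟨torsionPoly π k, (torsionPoly_facts hπ k).1, hl.aeval_lam⟩
  refine ⟨K⟮lam⟯.val.injective ?_, (IntermediateField.adjoin.powerBasis hint).adjoin_gen_eq_top⟩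
  rw [map_zero]
  change (K⟮lam⟯.val.restrictScalars O)
    (aeval (⟨lam, mem_adjoin_simple_self K lam⟩ : K⟮lam⟯) (torsionPoly π k)) = 0
  rw [← aeval_algHom_apply]
  exact hl.aeval_lam

theorem absVal_root_le_one : ν x₀ ≤ 1 :=
  absVal_le_one_of_isIntegral hl.nonarch hl.le_one ⟨f, hl.monic, hl.aeval_root⟩

theorem absVal_lam_le_one : ν lam ≤ 1 :=
  absVal_le_one_of_isIntegral hl.nonarch hl.le_one
    ⟨torsionPoly π k, (torsionPoly_facts hπ k).1, hl.aeval_lam⟩

/-- A polynomial prime to `f` modulo `π` has value of absolute value one at the root. -/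
theorem absVal_aeval_root_eq_one {P : O[X]} (hP : ¬ f.map (residue O) ∣ P.map (residue O)) :
    ν (aeval x₀ P) = 1 := by
  obtain ⟨a, b, hab⟩ := (hl.irreducible.coprime_iff_not_dvd).2 hP
  obtain ⟨A, rfl⟩ := Polynomial.map_surjective _ IsLocalRing.residue_surjective a
  obtain ⟨B, rfl⟩ := Polynomial.map_surjective _ IsLocalRing.residue_surjective b
  rw [← Polynomial.map_mul, ← Polynomial.map_mul, ← Polynomial.map_add, ← Polynomial.map_one
    (residue O), ← sub_eq_zero, ← Polynomial.map_sub, ← mem_span_C_iff hπ] at hab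
  obtain ⟨d, hd⟩ := Ideal.mem_span_singleton'.1 hab
  have h := congrArg (aeval x₀) hd
  simp only [map_mul, map_sub, map_add, map_one, aeval_C, hl.aeval_root, mul_zero, zero_add] at h
  have hx := absVal_root_le_one hπ hl
  have hd1 := absVal_aeval_le_one hl.nonarch hl.le_one d hx
  have hlt : ν (aeval x₀ B * aeval x₀ P - 1) < 1 := by
    rw [← h, map_mul]
    exact (mul_le_of_le_one_left (ν.nonneg _) hd1).trans_lt hl.lt_one
  refine le_antisymm (absVal_aeval_le_one hl.nonarch hl.le_one P hx) (not_lt.1 fun hlt' => ?_)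
  have h1 : ν (aeval x₀ B * aeval x₀ P) < 1 := by
    rw [map_mul]
    exact (mul_le_of_le_one_left (ν.nonneg _)
      (absVal_aeval_le_one hl.nonarch hl.le_one B hx)).trans_lt hlt'
  have h2 := hl.nonarch (-(aeval x₀ B * aeval x₀ P - 1)) (aeval x₀ B * aeval x₀ P)
  rw [neg_sub, sub_add_cancel, map_one, ν.map_sub, max_comm] at h2
  exact absurd h2 (not_le.2 (max_lt h1 hlt))

variable [IsAdicComplete (maximalIdeal O) O]

/-- The value of a series at `lam`. -/
def layerEval : PowerSeries O →ₐ[O] E :=
  (K⟮lam⟯.val.restrictScalars O).comp (evalAt hπ k (isTorsionGenerator_layer hπ hl))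

theorem layerEval_coe (P : O[X]) : layerEval hπ hl (P : PowerSeries O) = aeval lam P := by
  rw [layerEval, AlgHom.comp_apply, evalAt_coe, ← aeval_algHom_apply]
  rfl

theorem layerEval_X : layerEval hπ hl PowerSeries.X = lam := by
  rw [← Polynomial.coe_X, layerEval_coe, aeval_X]

theorem absVal_layerEval_le_one (u : PowerSeries O) : ν (layerEval hπ hl u) ≤ 1 :=
  absVal_le_one_of_isIntegral hl.nonarch hl.le_one
    ((isIntegral_evalAt hπ k (isTorsionGenerator_layer hπ hl) u).map
      (K⟮lam⟯.val.restrictScalars O))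

theorem absVal_layerEval_unit {u : PowerSeries O} (hu : IsUnit u) :
    ν (layerEval hπ hl u) = 1 := by
  obtain ⟨w, hw⟩ := hu.exists_right_inv
  have h := congrArg (fun x => ν (layerEval hπ hl x)) hw
  simp only [map_mul, map_one] at h
  refine le_antisymm (absVal_layerEval_le_one hπ hl u) ?_
  rw [← h]
  exact mul_le_of_le_one_right (ν.nonneg _) (absVal_layerEval_le_one hπ hl w)

/-- **Total ramification**: `|π| = |lam| ^ D`, `D` the degree of the torsion extension. -/
theorem absVal_lam_pow : ν lam ^ torsionDegree O k = ν (algebraMap O E π) := by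
  obtain ⟨u, hu, he⟩ := exists_uniformizer_eq hπ k (isTorsionGenerator_layer hπ hl)
  have h := congrArg (fun x => ν (K⟮lam⟯.val x)) he
  simp only [map_mul, map_pow] at h
  change ν (algebraMap O E π) = ν (layerEval hπ hl u) * ν lam ^ torsionDegree O k at h
  rw [h, absVal_layerEval_unit hπ hl hu, one_mul]

omit [Finite (ResidueField O)] [IsAdicComplete (maximalIdeal O) O] in
theorem algebraMap_uniformizer_ne_zero : algebraMap O E π ≠ 0 := by
  have := hl.lt_one
  rw [IsScalarTower.algebraMap_apply O K E, _root_.map_ne_zero]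
  exact (map_ne_zero_iff _ (IsFractionRing.injective O K)).2 hπ.ne_zero

theorem absVal_lam_pos : 0 < ν lam := by
  refine ν.pos fun h => algebraMap_uniformizer_ne_zero hπ hl ?_
  have h' := absVal_lam_pow hπ hl
  rw [h, map_zero, zero_pow (torsionDegree_pos hπ k).ne', eq_comm, AbsoluteValue.eq_zero] at h'
  exact h'

theorem absVal_lam_lt_one : ν lam < 1 := by
  refine not_le.1 fun h => (not_lt.2 ?_) hl.lt_one
  rw [← absVal_lam_pow hπ hl]
  exact one_le_pow₀ h

/-- The absolute values of the torsion extension are the powers of that of `lam`. -/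
theorem exists_zpow_of_mem {c : E} (hc : c ∈ K⟮lam⟯) (hc0 : c ≠ 0) :
    ∃ n : ℤ, ν c = ν lam ^ n ∧ (0 ≤ n → ∃ P : O[X], c = aeval lam P) := by
  obtain ⟨n, u, hu, he⟩ := exists_unit_mul_zpow hπ k (isTorsionGenerator_layer hπ hl)
    (x := ⟨c, hc⟩) fun h => hc0 (congrArg Subtype.val h)
  have hce : c = layerEval hπ hl u * lam ^ n := by
    have h := congrArg K⟮lam⟯.val he
    rw [map_mul, map_zpow₀] at h
    exact h
  refine ⟨n, by rw [hce, map_mul, map_zpow₀, absVal_layerEval_unit hπ hl hu, one_mul], fun hn => ?_⟩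
  obtain ⟨j, rfl⟩ := Int.eq_ofNat_of_zero_le hn
  rw [zpow_natCast] at hce
  obtain ⟨P, hP⟩ : ∃ P : O[X], layerEval hπ hl (u * PowerSeries.X ^ j) = aeval lam P := by
    have h := evalAt_mem_adjoin hπ k (isTorsionGenerator_layer hπ hl) (u * PowerSeries.X ^ j)
    rw [Algebra.adjoin_singleton_eq_range_aeval] at h
    obtain ⟨P, hP⟩ := h
    refine ⟨P, ?_⟩
    rw [layerEval, AlgHom.comp_apply, ← hP]
    exact (aeval_algHom_apply (K⟮lam⟯.val.restrictScalars O) _ P).symm
  exact ⟨P, by rw [← hP, map_mul, map_pow, layerEval_X, hce]⟩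

/-- An element of the torsion extension of absolute value at most one is in `O[lam]`. -/
theorem exists_aeval_of_absVal_le_one {c : E} (hc : c ∈ K⟮lam⟯) (h1 : ν c ≤ 1) :
    ∃ P : O[X], c = aeval lam P := by
  rcases eq_or_ne c 0 with rfl | hc0
  · exact ⟨0, (map_zero _).symm⟩
  obtain ⟨n, hn, hP⟩ := exists_zpow_of_mem hπ hl hc hc0
  refine hP ?_
  by_contra! hneg
  rw [hn] at h1
  exact absurd h1 (not_le.2 (one_lt_zpow_of_neg₀ (absVal_lam_pos hπ hl) (absVal_lam_lt_one hπ hl)
    hneg))

/-- Combinations of the powers of the root are as big as their largest coefficient. -/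
theorem absVal_coeff_le {c : Fin f.natDegree → E} (hc : ∀ i, c i ∈ K⟮lam⟯) (i : Fin f.natDegree) :
    ν (c i) ≤ ν (∑ j, c j * x₀ ^ (j : ℕ)) := by
  classical
  obtain ⟨j, -, hj⟩ := Finset.exists_max_image Finset.univ (fun j => ν (c j))
    ⟨i, Finset.mem_univ i⟩
  refine (hj i (Finset.mem_univ i)).trans ?_
  rcases eq_or_ne (c j) 0 with h0 | h0
  · rw [h0, map_zero]
    exact ν.nonneg _
  have hd : ∀ l, c l / c j ∈ K⟮lam⟯ := fun l => div_mem (hc l) (hc j)
  have hd1 : ∀ l, ν (c l / c j) ≤ 1 := fun l => by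
    rw [map_div₀, div_le_one (ν.pos h0)]
    exact hj l (Finset.mem_univ l)
  choose P hP using fun l => exists_aeval_of_absVal_le_one hπ hl (hd l) (hd1 l)
  set Q : O[X] := ∑ l : Fin f.natDegree, C ((P l).coeff 0) * X ^ (l : ℕ) with hQ
  have hQ1 : ν (aeval x₀ Q) = 1 := by
    refine absVal_aeval_root_eq_one hπ hl fun hdvd => ?_
    have hcoef : (Q.map (residue O)).coeff j = residue O ((P j).coeff 0) := by
      rw [coeff_map, hQ, finsetSum_coeff, Finset.sum_eq_single j]
      · simp
      · intro l _ hl'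
        rw [coeff_C_mul_X_pow, if_neg fun h => hl' (Fin.ext h.symm)]
      · simp
    have hzero : Q.map (residue O) = 0 := by
      refine Polynomial.eq_zero_of_dvd_of_degree_lt hdvd ?_
      rw [Polynomial.degree_eq_natDegree hl.irreducible.ne_zero, hl.monic.natDegree_map]
      refine (degree_map_le).trans_lt ?_
      rw [hQ]
      exact degree_sum_fin_lt fun l => (P l).coeff 0
    rw [hzero, coeff_zero, eq_comm, residue_eq_zero_iff, hπ.maximalIdeal_eq,
      Ideal.mem_span_singleton] at hcoef
    obtain ⟨e, he⟩ := hcoef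
    have hval : aeval lam (P j) = algebraMap O E π * algebraMap O E e +
        lam * aeval lam (P j).divX := by
      conv_lhs => rw [← X_mul_divX_add (P j)]
      rw [map_add, map_mul, aeval_X, aeval_C, he, map_mul, add_comm]
    have h1 : ν (aeval lam (P j)) < 1 := by
      rw [hval]
      refine (hl.nonarch _ _).trans_lt (max_lt ?_ ?_) <;> rw [map_mul]
      · exact (mul_le_of_le_one_right (ν.nonneg _) (hl.le_one e)).trans_lt hl.lt_one
      · exact (mul_le_of_le_one_right (ν.nonneg _) (absVal_aeval_le_one hl.nonarch hl.le_one _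
          (absVal_lam_le_one hπ hl))).trans_lt (absVal_lam_lt_one hπ hl)
    rw [← hP j, div_self h0, map_one] at h1
    exact lt_irrefl _ h1
  -- the combination is congruent to the value of `Q`
  have hsum : (∑ l, c l * x₀ ^ (l : ℕ)) =
      c j * (aeval x₀ Q + lam * ∑ l, aeval lam (P l).divX * x₀ ^ (l : ℕ)) := by
    rw [hQ, map_sum, Finset.mul_sum, ← Finset.sum_add_distrib, Finset.mul_sum]
    refine Finset.sum_congr rfl fun l _ => ?_
    have h := congrArg (aeval lam) (X_mul_divX_add (P l))
    rw [map_add, map_mul, aeval_X, aeval_C, ← hP l, eq_div_iff h0] at h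
    rw [← h, map_mul, aeval_C, map_pow, aeval_X]
    ring
  rw [hsum, map_mul]
  refine le_mul_of_one_le_right (ν.nonneg _) (not_lt.1 fun hlt => ?_)
  set R := ∑ l, aeval lam (P l).divX * x₀ ^ (l : ℕ)
  have hR : ν R ≤ 1 := absVal_sum_le hl.nonarch _ _ zero_le_one fun l _ => by
    rw [map_mul, map_pow]
    exact mul_le_one₀ (absVal_aeval_le_one hl.nonarch hl.le_one _ (absVal_lam_le_one hπ hl))
      (pow_nonneg (ν.nonneg _) _) (pow_le_one₀ (ν.nonneg _) (absVal_root_le_one hπ hl))
  have h2 := hl.nonarch (aeval x₀ Q + lam * R) (-(lam * R))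
  rw [add_neg_cancel_right, hQ1, AbsoluteValue.map_neg, map_mul] at h2
  exact absurd h2 (not_le.2 (max_lt hlt
    ((mul_le_of_le_one_right (ν.nonneg _) hR).trans_lt (absVal_lam_lt_one hπ hl))))

/-- Every element is such a combination. -/
theorem exists_combination (x : E) : ∃ c : Fin f.natDegree → E,
    (∀ i, c i ∈ K⟮lam⟯) ∧ x = ∑ i, c i * x₀ ^ (i : ℕ) := by
  have : IsScalarTower O K⟮lam⟯ E := IsScalarTower.of_algebraMap_eq fun a => rfl
  have hm : (f.map (algebraMap O K⟮lam⟯)).Monic := hl.monic.map _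
  have hint : IsIntegral K⟮lam⟯ x₀ := IsIntegral.tower_top (R := O) ⟨f, hl.monic, hl.aeval_root⟩
  have htop : Algebra.adjoin K⟮lam⟯ {x₀} = ⊤ := by
    rw [← adjoin_simple_toSubalgebra_of_isAlgebraic hint.isAlgebraic, ← top_toSubalgebra]
    congr 1
    refine restrictScalars_injective K ?_
    rw [adjoin_simple_adjoin_simple, hl.adjoin_eq, restrictScalars_top]
  have hx : x ∈ Algebra.adjoin K⟮lam⟯ {x₀} := by rw [htop]; trivial
  rw [Algebra.adjoin_singleton_eq_range_aeval] at hx
  obtain ⟨P, rfl⟩ := hx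
  set R := P %ₘ f.map (algebraMap O K⟮lam⟯)
  refine ⟨fun i => (R.coeff i : E), fun i => (R.coeff i).2, ?_⟩
  have hdeg : R.natDegree < f.natDegree := by
    rw [← hl.monic.natDegree_map (algebraMap O K⟮lam⟯)]
    refine natDegree_modByMonic_lt P hm fun h => ?_
    have h' := congrArg natDegree h
    rw [hl.monic.natDegree_map, natDegree_one] at h'
    have := hl.irreducible.natDegree_pos
    rw [hl.monic.natDegree_map] at this
    omega
  have heval : aeval x₀ R = aeval x₀ P := by
    have h0 : aeval x₀ (f.map (algebraMap O K⟮lam⟯)) = 0 := by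
      rw [aeval_map_algebraMap]
      exact hl.aeval_root
    have h := congrArg (aeval x₀) (modByMonic_add_div P (f.map (algebraMap O K⟮lam⟯)))
    rwa [map_add, map_mul, h0, zero_mul, add_zero] at h
  change aeval x₀ P = _
  rw [← heval, aeval_eq_sum_range' hdeg, Finset.sum_range]
  rfl

/-- The absolute values are the powers of that of `lam`. -/
theorem exists_zpow_eq {x : E} (hx : x ≠ 0) : ∃ n : ℤ, ν x = ν lam ^ n := by
  classical
  obtain ⟨c, hc, rfl⟩ := exists_combination hπ hl x
  obtain ⟨j, -, hj⟩ := Finset.exists_max_image Finset.univ (fun j => ν (c j))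
    ⟨⟨0, by
      have := hl.irreducible.natDegree_pos
      rwa [hl.monic.natDegree_map] at this⟩, Finset.mem_univ _⟩
  have heq : ν (∑ i, c i * x₀ ^ (i : ℕ)) = ν (c j) := by
    refine le_antisymm (absVal_sum_le hl.nonarch _ _ (ν.nonneg _) fun i _ => ?_)
      (absVal_coeff_le hπ hl hc j)
    rw [map_mul, map_pow]
    exact (mul_le_of_le_one_right (ν.nonneg _)
      (pow_le_one₀ (ν.nonneg _) (absVal_root_le_one hπ hl))).trans (hj i (Finset.mem_univ i))
  rw [heq]
  obtain ⟨n, hn, -⟩ := exists_zpow_of_mem hπ hl (hc j) fun h => hx (by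
    rw [← AbsoluteValue.eq_zero ν, heq, h, map_zero])
  exact ⟨n, hn⟩

/-- An element of absolute value at most one has coefficients in `O[lam]`. -/
theorem exists_integral_combination {x : E} (hx : ν x ≤ 1) :
    ∃ P : Fin f.natDegree → O[X], x = ∑ i, aeval lam (P i) * x₀ ^ (i : ℕ) := by
  obtain ⟨c, hc, rfl⟩ := exists_combination hπ hl x
  choose P hP using fun i =>
    exists_aeval_of_absVal_le_one hπ hl (hc i) ((absVal_coeff_le hπ hl hc i).trans hx)
  exact ⟨P, Finset.sum_congr rfl fun i _ => by rw [← hP i]⟩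

theorem zpow_lam_injective {a b : ℤ} (h : ν lam ^ a = ν lam ^ b) : a = b :=
  zpow_right_injective₀ (absVal_lam_pos hπ hl) (absVal_lam_lt_one hπ hl).ne h

open Classical in
/-- The exponent of an element. -/
def layerOrd (x : E) : WithTop ℤ :=
  if hx : x = 0 then ⊤ else ((exists_zpow_eq hπ hl hx).choose : WithTop ℤ)

theorem coe_le_layerOrd_iff {n : ℤ} {x : E} :
    (n : WithTop ℤ) ≤ layerOrd hπ hl x ↔ ν x ≤ ν lam ^ n := by
  unfold layerOrd
  split_ifs with hx
  · simp [hx, (zpow_pos (absVal_lam_pos hπ hl) n).le]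
  · rw [WithTop.coe_le_coe]
    conv_rhs => rw [(exists_zpow_eq hπ hl hx).choose_spec]
    rw [zpow_le_zpow_iff_right_of_lt_one₀ (absVal_lam_pos hπ hl) (absVal_lam_lt_one hπ hl)]

theorem layerOrd_eq {x : E} {n : ℤ} (h : ν x = ν lam ^ n) :
    layerOrd hπ hl x = (n : WithTop ℤ) := by
  have hx : x ≠ 0 := fun h0 => by
    rw [h0, map_zero] at h
    exact (zpow_pos (absVal_lam_pos hπ hl) n).ne h
  rw [layerOrd, dif_neg hx, WithTop.coe_inj]
  exact zpow_lam_injective hπ hl ((exists_zpow_eq hπ hl hx).choose_spec.symm.trans h)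

/-- **The normalised valuation of a layer.** -/
def layerVal : AddValuation E (WithTop ℤ) :=
  AddValuation.of (layerOrd hπ hl) (by rw [layerOrd, dif_pos rfl])
    (layerOrd_eq hπ hl (n := 0) (by rw [map_one, zpow_zero]))
    (fun x y => by
      refine WithTop.recTopCoe (C := fun t => min (layerOrd hπ hl x) (layerOrd hπ hl y) = t →
        t ≤ layerOrd hπ hl (x + y)) (fun h => ?_) (fun n h => ?_)
        (min (layerOrd hπ hl x) (layerOrd hπ hl y)) rfl
      · rw [min_eq_top, layerOrd, layerOrd] at h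
        obtain ⟨h1, h2⟩ := h
        split_ifs at h1 with hx
        · split_ifs at h2 with hy
          · rw [hx, hy, add_zero, layerOrd, dif_pos rfl]
          · exact absurd h2 WithTop.coe_ne_top
        · exact absurd h1 WithTop.coe_ne_top
      · rw [coe_le_layerOrd_iff]
        refine (hl.nonarch x y).trans (max_le ?_ ?_) <;> rw [← coe_le_layerOrd_iff hπ hl, ← h]
        exacts [min_le_left _ _, min_le_right _ _])
    (fun x y => by
      rcases eq_or_ne x 0 with rfl | hx
      · rw [zero_mul, layerOrd, dif_pos rfl, WithTop.top_add]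
      rcases eq_or_ne y 0 with rfl | hy
      · rw [mul_zero, layerOrd, dif_pos rfl, WithTop.add_top]
      obtain ⟨a, ha⟩ := exists_zpow_eq hπ hl hx
      obtain ⟨b, hb⟩ := exists_zpow_eq hπ hl hy
      rw [layerOrd_eq hπ hl ha, layerOrd_eq hπ hl hb, layerOrd_eq hπ hl (n := a + b) (by
        rw [map_mul, ha, hb, zpow_add₀ (absVal_lam_pos hπ hl).ne']), WithTop.coe_add])

theorem layerVal_apply (x : E) : layerVal hπ hl x = layerOrd hπ hl x := rfl

theorem layerVal_invariant (σ : E ≃ₐ[K] E) (x : E) :
    layerVal hπ hl (σ • x) = layerVal hπ hl x := by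
  rcases eq_or_ne x 0 with rfl | hx
  · rw [smul_zero]
  obtain ⟨a, ha⟩ := exists_zpow_eq hπ hl hx
  rw [layerVal_apply, layerVal_apply, layerOrd_eq hπ hl ha,
    layerOrd_eq hπ hl (x := σ • x) (by rw [AlgEquiv.smul_def, hl.invariant, ha])]

theorem layerVal_lam : layerVal hπ hl lam = ((1 : ℤ) : WithTop ℤ) :=
  layerOrd_eq hπ hl (by rw [zpow_one])

theorem layerVal_nonneg_iff {x : E} : 0 ≤ layerVal hπ hl x ↔ ν x ≤ 1 := by
  rw [layerVal_apply, show (0 : WithTop ℤ) = ((0 : ℤ) : WithTop ℤ) from rfl,
    coe_le_layerOrd_iff, zpow_zero]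

end Fermat.Agent.LubinTate
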