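import Fermat.Agent.LubinTate.Ramification.Layer
import Fermat.Agent.HasseArf.Lower
import Mathlib.FieldTheory.Galois.Basic
import Mathlib.Algebra.Polynomial.Identities
import Mathlib.Data.Nat.Log

/-!
# The lower numbering of an explicit layer

`layerAut u` fixes the unramified generator and acts on the torsion as `[u]`. The lower
ramification group of index `i` is the image of `U ^ (s)`, `s` least with `i + 1 ≤ q ^ s`.
-/

set_option autoImplicit false
set_option linter.unusedSectionVars false

noncomputable section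

open Polynomial IsLocalRing IntermediateField

namespace Fermat.Agent.LubinTate

variable {O : Type*} [CommRing O] [IsDomain O] [IsDiscreteValuationRing O]
  [Finite (ResidueField O)] [IsAdicComplete (maximalIdeal O) O] {π : O}
  {K : Type*} [Field K] [Algebra O K] [IsFractionRing O K]
  {E : Type*} [Field E] [Algebra O E] [Algebra K E] [IsScalarTower O K E]
  {k : ℕ} {f : O[X]} {ν : AbsoluteValue E ℝ} {lam x₀ : E}
  (hπ : Irreducible π) (hl : IsExplicitLayer K π k f ν lam x₀)
include hπ hl

/-- The degree of a layer. -/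
theorem finrank_layer : Module.finrank K⟮lam⟯ E = f.natDegree := by
  classical
  have hli : LinearIndependent K⟮lam⟯ fun i : Fin f.natDegree => x₀ ^ (i : ℕ) := by
    rw [Fintype.linearIndependent_iff]
    intro g hg i
    have h := absVal_coeff_le hπ hl (c := fun i => (g i : E)) (fun i => (g i).2) i
    have h0 : (∑ j, (g j : E) * x₀ ^ (j : ℕ)) = 0 := hg
    rw [h0, map_zero] at h
    exact Subtype.ext (ν.eq_zero.1 (le_antisymm h (ν.nonneg _)))
  have hspan : ⊤ ≤ Submodule.span K⟮lam⟯ (Set.range fun i : Fin f.natDegree => x₀ ^ (i : ℕ)) := by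
    intro x _
    obtain ⟨c, hc, rfl⟩ := exists_combination hπ hl x
    exact sum_mem fun i _ => Submodule.smul_mem _ (⟨c i, hc i⟩ : K⟮lam⟯)
      (Submodule.subset_span (Set.mem_range_self i))
  rw [Module.finrank_eq_card_basis (Module.Basis.mk hli hspan), Fintype.card_fin]

theorem finiteDimensional_layer : FiniteDimensional K E := by
  have := finiteDimensional hπ k (isTorsionGenerator_layer hπ hl)
  have : FiniteDimensional K⟮lam⟯ E := Module.finite_of_finrank_pos (by
    rw [finrank_layer hπ hl]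
    have := hl.irreducible.natDegree_pos
    rwa [hl.monic.natDegree_map] at this)
  exact Module.Finite.trans K⟮lam⟯ E

/-- The degree over the unramified subfield. -/
theorem finrank_over_unramified : Module.finrank K⟮x₀⟯ E = torsionDegree O k := by
  have := finiteDimensional_layer hπ hl
  have hx : Module.finrank K K⟮x₀⟯ = f.natDegree := by
    rw [IntermediateField.adjoin.finrank (Algebra.IsIntegral.isIntegral x₀),
      minpoly_unramified hl.monic hl.irreducible E x₀ hl.aeval_root, hl.monic.natDegree_map]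
  have h1 := Module.finrank_mul_finrank K K⟮x₀⟯ E
  rw [← Module.finrank_mul_finrank K K⟮lam⟯ E, hx, finrank_layer hπ hl,
    finrank_eq hπ k (isTorsionGenerator_layer hπ hl), mul_comm] at h1
  refine Nat.eq_of_mul_eq_mul_right ?_ h1
  rw [← hx]
  exact Module.finrank_pos

theorem exists_inertiaEquiv [IsGalois K E] :
    ∃ ψ : Oˣ →* (E ≃ₐ[K] E), (∀ u, ψ u x₀ = x₀) ∧
      (∀ u, ψ u lam = layerEval hπ hl (torsionScalar hπ (u : O))) ∧
      ∀ g : E ≃ₐ[K] E, g x₀ = x₀ → ∃ u, ψ u = g := by
  have := finiteDimensional_layer hπ hl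
  have hT := isTorsionGenerator_layer hπ hl
  obtain ⟨hgal, -⟩ := galois_torsion hπ k hT
  set r : K⟮x₀⟯.fixingSubgroup →* (K⟮lam⟯ ≃ₐ[K] K⟮lam⟯) :=
    (AlgEquiv.restrictNormalHom K⟮lam⟯).comp K⟮x₀⟯.fixingSubgroup.subtype with hr
  have hres : ∀ (g : K⟮x₀⟯.fixingSubgroup) (x : K⟮lam⟯),
      ((r g x : K⟮lam⟯) : E) = (g : E ≃ₐ[K] E) x := fun g x =>
    AlgEquiv.restrictNormal_commutes (g : E ≃ₐ[K] E) K⟮lam⟯ x
  have hfix : ∀ g : E ≃ₐ[K] E, g ∈ K⟮x₀⟯.fixingSubgroup ↔ g x₀ = x₀ := fun g => by
    constructor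
    · exact fun h => (IntermediateField.mem_fixingSubgroup_iff _ _).1 h _
        (mem_adjoin_simple_self K x₀)
    · intro h
      refine (IntermediateField.mem_fixingSubgroup_iff _ _).2 fun x hx => ?_
      have hle : K⟮x₀⟯ ≤ IntermediateField.fixedField (Subgroup.zpowers g) := by
        rw [adjoin_simple_le_iff]
        intro σ
        exact Subgroup.zpowers_le.2 (show g ∈ MulAction.stabilizer (E ≃ₐ[K] E) x₀ from h) σ.2
      exact hle hx ⟨g, Subgroup.mem_zpowers g⟩
  have hinj : Function.Injective r := by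
    refine (injective_iff_map_eq_one r).2 fun g hg => Subtype.ext ?_
    refine AlgEquiv.ext fun x => ?_
    obtain ⟨c, hc, rfl⟩ := exists_combination hπ hl x
    have hg' : ∀ y ∈ K⟮lam⟯, (g : E ≃ₐ[K] E) y = y := fun y hy => by
      rw [← hres g ⟨y, hy⟩, hg]; rfl
    simp only [OneMemClass.coe_one, AlgEquiv.one_apply, map_sum, map_mul, map_pow,
      (hfix _).1 g.2]
    exact Finset.sum_congr rfl fun i _ => by rw [hg' _ (hc i)]
  have hbij : Function.Bijective r := by
    refine (Nat.bijective_iff_injective_and_card r).2 ⟨hinj, ?_⟩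
    rw [IsGalois.card_fixingSubgroup_eq_finrank, finrank_over_unramified hπ hl,
      IsGalois.card_aut_eq_finrank, finrank_eq hπ k hT]
  set e := MulEquiv.ofBijective r hbij
  refine ⟨K⟮x₀⟯.fixingSubgroup.subtype.comp (e.symm.toMonoidHom.comp (torsionAut hπ k hT)),
    fun u => (hfix _).1 (e.symm (torsionAut hπ k hT u)).2, fun u => ?_, fun g hg => ?_⟩
  · have h := hres (e.symm (torsionAut hπ k hT u)) ⟨lam, mem_adjoin_simple_self K lam⟩
    rw [show r (e.symm (torsionAut hπ k hT u)) = torsionAut hπ k hT u from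
      e.apply_symm_apply _] at h
    change ((e.symm (torsionAut hπ k hT u) : K⟮x₀⟯.fixingSubgroup) : E ≃ₐ[K] E) lam = _
    rw [← h, show (torsionAut hπ k hT u) ⟨lam, mem_adjoin_simple_self K lam⟩ =
      torsionPoint hπ k hT (u : O) from torsionAlgHom_lam hπ k hT u]
    rfl
  · obtain ⟨-, e', he'⟩ := galois_torsion hπ k hT
    obtain ⟨v, hv⟩ := e'.surjective (r ⟨g, (hfix g).2 hg⟩)
    obtain ⟨u, rfl⟩ := IsLocalRing.surjective_units_map_of_local_ringHom _
      Ideal.Quotient.mk_surjective (isLocalHom_quotient hπ k) v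
    have hr' : torsionAut hπ k hT u = r ⟨g, (hfix g).2 hg⟩ := by
      rw [← hv]
      refine AlgEquiv.coe_toAlgHom_injective ((torsionBasis hπ k hT).algHom_ext ?_)
      change torsionAut hπ k hT u _ = e' _ _
      have h1 := he' u 1
      have h2 := torsionAut_point hπ k hT u 1
      rw [torsionPoint_one] at h1 h2
      exact h2.trans h1.symm
    refine ⟨u, ?_⟩
    simp only [MonoidHom.comp_apply, MulEquiv.coe_toMonoidHom, Subgroup.subtype_apply]
    rw [hr', show r ⟨g, (hfix g).2 hg⟩ = e ⟨g, (hfix g).2 hg⟩ from rfl, e.symm_apply_apply]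

variable [IsGalois K E]

/-- **The action of a unit on a layer.** -/
def layerAut : Oˣ →* (E ≃ₐ[K] E) := (exists_inertiaEquiv hπ hl).choose

theorem layerAut_root (u : Oˣ) : layerAut hπ hl u x₀ = x₀ :=
  (exists_inertiaEquiv hπ hl).choose_spec.1 u

theorem layerAut_lam (u : Oˣ) :
    layerAut hπ hl u lam = layerEval hπ hl (torsionScalar hπ (u : O)) :=
  (exists_inertiaEquiv hπ hl).choose_spec.2.1 u

theorem exists_layerAut_eq {g : E ≃ₐ[K] E} (hg : g x₀ = x₀) : ∃ u, layerAut hπ hl u = g :=
  (exists_inertiaEquiv hπ hl).choose_spec.2.2 g hg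

omit [IsGalois K E] in
/-- The absolute value of an iterate at `lam`. -/
theorem absVal_iterPoly_lam {j : ℕ} (hj : j ≤ k) :
    ν (aeval lam (iterPoly π (residueCard O) j)) = ν lam ^ residueCard O ^ j := by
  have hq := (isLubinTateBase hπ).two_le
  obtain ⟨z, hz⟩ : C π ∣ iterPoly π (residueCard O) j - X ^ residueCard O ^ j := by
    rw [C_dvd_iff_dvd_coeff]
    intro t
    rw [← Ideal.mem_span_singleton, ← Ideal.Quotient.eq_zero_iff_mem, ← coeff_map,
      Polynomial.map_sub, Polynomial.map_pow, map_X, (monic_iterPoly hq j).2.1, sub_self,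
      coeff_zero]
  have hz0 : z.coeff 0 = 0 := by
    have h := congrArg (fun p : O[X] => p.coeff 0) hz
    simp only [coeff_sub, (monic_iterPoly hq j).2.2.1, coeff_X_pow, coeff_C_mul,
      if_neg (pow_pos (by omega : 0 < residueCard O) j).ne, sub_zero] at h
    exact (mul_eq_zero.1 h.symm).resolve_left hπ.ne_zero
  have he : aeval lam (iterPoly π (residueCard O) j) = lam ^ residueCard O ^ j +
      algebraMap O E π * (lam * aeval lam z.divX) := by
    have h := congrArg (aeval lam) hz
    have h' := congrArg (aeval lam) (X_mul_divX_add z)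
    rw [map_add, map_mul, aeval_X, aeval_C, hz0, map_zero, add_zero] at h'
    rw [map_sub, map_pow, aeval_X, map_mul, aeval_C, ← h', sub_eq_iff_eq_add'] at h
    exact h
  have hlt : ν (algebraMap O E π * (lam * aeval lam z.divX)) < ν lam ^ residueCard O ^ j := by
    rw [map_mul, map_mul, ← absVal_lam_pow hπ hl, ← mul_assoc, ← pow_succ]
    refine (mul_le_of_le_one_right (pow_nonneg (ν.nonneg _) _)
      (absVal_aeval_le_one hl.nonarch hl.le_one _ (absVal_lam_le_one hπ hl))).trans_lt ?_
    refine pow_lt_pow_right_of_lt_one₀ (absVal_lam_pos hπ hl) (absVal_lam_lt_one hπ hl)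
      (Nat.lt_succ_of_le ?_)
    calc residueCard O ^ j ≤ residueCard O ^ k * 1 := by
          rw [mul_one]; exact Nat.pow_le_pow_right (by omega) hj
      _ ≤ torsionDegree O k := Nat.mul_le_mul_left _ (by omega)
  rw [he]
  refine le_antisymm ((hl.nonarch _ _).trans (max_le (by rw [map_pow]) hlt.le)) ?_
  refine not_lt.1 fun h => ?_
  have h2 := hl.nonarch (lam ^ residueCard O ^ j + algebraMap O E π * (lam * aeval lam z.divX))
    (-(algebraMap O E π * (lam * aeval lam z.divX)))
  rw [add_neg_cancel_right, AbsoluteValue.map_neg, map_pow] at h2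
  exact absurd h2 (not_le.2 (max_lt h hlt))

/-- The displacement of `lam` by a unit `1 + w π ^ j`, and by one `≡ 1` modulo `π ^ (k + 1)`. -/
theorem absVal_layerAut_sub {j : ℕ} (hj : j ≤ k) {u : Oˣ} {w : O} (hw : IsUnit w)
    (hu : (u : O) - 1 = w * π ^ j) :
    ν (layerAut hπ hl u lam - lam) = ν lam ^ residueCard O ^ j := by
  have h0 := isLTSeries_basicPoly (isLubinTateBase hπ)
  obtain ⟨G, hG, he⟩ := exists_scalarHom_add (isLubinTateBase hπ) h0 h0 1 ((u : O) - 1)
  rw [add_sub_cancel, scalarHom_one, hu] at he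
  obtain ⟨U, hU, he', -⟩ := exists_iterPoly_subst (isLubinTateBase hπ) w j
  rw [he'] at he
  rw [layerAut_lam, torsionScalar, he, map_add, layerEval_X, add_sub_cancel_left]
  simp only [map_mul, layerEval_coe]
  rw [absVal_iterPoly_lam hπ hl hj,
    absVal_layerEval_unit hπ hl (PowerSeries.isUnit_iff_constantCoeff.2 (by rw [hU]; exact hw)),
    absVal_layerEval_unit hπ hl
      (PowerSeries.isUnit_iff_constantCoeff.2 (by rw [hG]; exact isUnit_one)), mul_one, mul_one]

theorem layerAut_eq_one {u : Oˣ} (hu : (u : O) - 1 ∈ Ideal.span {π ^ (k + 1)}) :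
    layerAut hπ hl u = 1 := by
  have hlam : layerAut hπ hl u lam = lam := by
    rw [layerAut_lam, layerEval, AlgHom.comp_apply]
    change K⟮lam⟯.val (torsionPoint hπ k (isTorsionGenerator_layer hπ hl) (u : O)) = lam
    rw [(torsionPoint_eq_iff hπ k _ (u : O) 1).2 hu, torsionPoint_one]
    rfl
  refine AlgEquiv.ext fun x => ?_
  obtain ⟨c, hc, rfl⟩ := exists_combination hπ hl x
  have hfix : K⟮lam⟯ ≤ IntermediateField.fixedField (Subgroup.zpowers (layerAut hπ hl u)) := by
    rw [adjoin_simple_le_iff]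
    intro σ
    exact Subgroup.zpowers_le.2
      (show layerAut hπ hl u ∈ MulAction.stabilizer (E ≃ₐ[K] E) lam from hlam) σ.2
  simp only [map_sum, map_mul, map_pow, layerAut_root, AlgEquiv.one_apply]
  exact Finset.sum_congr rfl fun i _ => by
    rw [show layerAut hπ hl u (c i) = c i from hfix (hc i) ⟨_, Subgroup.mem_zpowers _⟩]

/-- Conjugates of the root are incongruent. -/
theorem absVal_root_sub_eq_one {g : E ≃ₐ[K] E} (hg : g x₀ ≠ x₀) : ν (g x₀ - x₀) = 1 := by
  have hroot : aeval (g x₀) f = 0 := by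
    change aeval ((g.toAlgHom.restrictScalars O) x₀) f = 0
    rw [aeval_algHom_apply, hl.aeval_root, map_zero]
  have hx := absVal_root_le_one hπ hl
  have hgx : ν (g x₀) ≤ 1 := by rw [hl.invariant]; exact hx
  refine le_antisymm ((hl.nonarch (g x₀) (-x₀)).trans_eq' (by rw [sub_eq_add_neg]) |>.trans
    (max_le hgx (by rw [AbsoluteValue.map_neg]; exact hx))) (not_lt.1 fun hlt => ?_)
  have hder : ν (aeval x₀ (derivative f)) = 1 := by
    refine absVal_aeval_root_eq_one hπ hl fun hdvd => ?_
    have := PerfectField.separable_of_irreducible hl.irreducible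
    rw [Polynomial.separable_def, derivative_map] at this
    exact hl.irreducible.not_isUnit (isUnit_of_dvd_one (by
      obtain ⟨a, b, hab⟩ := this
      rw [← hab]
      exact dvd_add (dvd_mul_left _ _) (hdvd.mul_left _)))
  set S := integralClosure O E
  set x : S := ⟨x₀, ⟨f, hl.monic, hl.aeval_root⟩⟩
  set h : S := ⟨g x₀, ⟨f, hl.monic, hroot⟩⟩ - x
  obtain ⟨z, hz⟩ := Polynomial.binomExpansion (f.map (algebraMap O S)) x h
  have hz' := congrArg (Subalgebra.val S) hz
  have hc : ∀ (P : O[X]) (y : S),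
      S.val ((P.map (algebraMap O S)).eval y) = aeval (y : E) P := fun P y => by
    rw [eval_map, ← aeval_def, ← aeval_algHom_apply]; rfl
  rw [add_sub_cancel, map_add, map_add, map_mul, map_mul, map_pow, derivative_map, hc, hc, hc,
    show aeval ((⟨g x₀, ⟨f, hl.monic, hroot⟩⟩ : S) : E) f = 0 from hroot,
    show aeval ((x : S) : E) f = 0 from hl.aeval_root, zero_add] at hz'
  have hh : S.val h = g x₀ - x₀ := rfl
  rw [hh] at hz'
  have hmul : (g x₀ - x₀) * (aeval x₀ (derivative f) + S.val z * (g x₀ - x₀)) = 0 := by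
    rw [mul_add, hz']
    ring
  have h' := eq_neg_of_add_eq_zero_left ((mul_eq_zero.1 hmul).resolve_left (sub_ne_zero.2 hg))
  rw [h', AbsoluteValue.map_neg, map_mul] at hder
  exact absurd hder (ne_of_lt ((mul_le_of_le_one_left (ν.nonneg _)
    (absVal_le_one_of_isIntegral hl.nonarch hl.le_one z.2)).trans_lt hlt))

/-- Membership in the lower ramification groups. -/
theorem mem_lowerGroup_iff (g : E ≃ₐ[K] E) (i : ℕ) :
    g ∈ HasseArf.lowerGroup (layerVal hπ hl) (layerVal_invariant hπ hl) i ↔
      g x₀ = x₀ ∧ ν (g lam - lam) ≤ ν lam ^ (i + 1) := by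
  constructor
  · intro h
    have hint : ∀ {y : E}, ν y ≤ 1 → ν (g y - y) ≤ ν lam ^ (i + 1) := fun {y} hy => by
      have h' := h y ((layerVal_nonneg_iff hπ hl).2 hy)
      rwa [AlgEquiv.smul_def, layerVal_apply, coe_le_layerOrd_iff, zpow_natCast] at h'
    refine ⟨by_contra fun hne => ?_, hint (absVal_lam_le_one hπ hl)⟩
    have h' := hint (absVal_root_le_one hπ hl)
    rw [absVal_root_sub_eq_one hπ hl hne] at h'
    exact absurd h' (not_le.2 (pow_lt_one₀ (ν.nonneg _) (absVal_lam_lt_one hπ hl)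
      (Nat.succ_ne_zero i)))
  · rintro ⟨hgx, hgl⟩ y hy
    rw [AlgEquiv.smul_def, layerVal_apply, coe_le_layerOrd_iff, zpow_natCast]
    obtain ⟨P, rfl⟩ := exists_integral_combination hπ hl ((layerVal_nonneg_iff hπ hl).1 hy)
    rw [map_sum, ← Finset.sum_sub_distrib]
    refine absVal_sum_le hl.nonarch _ _ (pow_nonneg (ν.nonneg _) _) fun t _ => ?_
    rw [map_mul, map_pow, hgx, ← sub_mul,
      show g (aeval lam (P t)) = aeval (g lam) (P t) from
        (aeval_algHom_apply (g.toAlgHom.restrictScalars O) lam (P t)).symm, map_mul, map_pow]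
    refine (mul_le_of_le_one_right (ν.nonneg _)
      (pow_le_one₀ (ν.nonneg _) (absVal_root_le_one hπ hl))).trans (le_trans ?_ hgl)
    rw [aeval_def, aeval_def, ← eval_map, ← eval_map]
    refine absVal_eval_sub_le hl.nonarch (fun s => ?_) ?_ (absVal_lam_le_one hπ hl)
    · rw [coeff_map]; exact hl.le_one _
    · rw [hl.invariant]; exact absVal_lam_le_one hπ hl

/-- **The lower numbering.** -/
theorem lowerGroup_eq (i : ℕ) :
    HasseArf.lowerGroup (layerVal hπ hl) (layerVal_invariant hπ hl) i =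
      (higherUnits π (Nat.clog (residueCard O) (i + 1))).map (layerAut hπ hl) := by
  have hq := (isLubinTateBase hπ).two_le
  set s := Nat.clog (residueCard O) (i + 1)
  ext g
  rw [mem_lowerGroup_iff]
  constructor
  · rintro ⟨hgx, hgl⟩
    obtain ⟨u, rfl⟩ := exists_layerAut_eq hπ hl hgx
    by_cases htop : (u : O) - 1 ∈ Ideal.span {π ^ (k + 1)}
    · exact ⟨1, one_mem _, by rw [map_one, layerAut_eq_one hπ hl htop]⟩
    refine ⟨u, mem_higherUnits.2 ?_, rfl⟩
    have hne : (u : O) - 1 ≠ 0 := fun h => htop (by rw [h]; exact zero_mem _)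
    obtain ⟨j, w, hw⟩ := IsDiscreteValuationRing.eq_unit_mul_pow_irreducible hne hπ
    have hj : j ≤ k := by
      by_contra! hjk
      refine htop (Ideal.mem_span_singleton.2 ?_)
      rw [hw]
      exact (pow_dvd_pow π (by omega)).mul_left _
    rw [absVal_layerAut_sub hπ hl hj w.isUnit hw,
      pow_le_pow_iff_right_of_lt_one₀ (absVal_lam_pos hπ hl) (absVal_lam_lt_one hπ hl),
      ← Nat.clog_le_iff_le_pow (by omega)] at hgl
    rw [Ideal.mem_span_singleton, hw]
    exact (pow_dvd_pow π hgl).mul_left _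
  · rintro ⟨u, hu, rfl⟩
    refine ⟨layerAut_root hπ hl u, ?_⟩
    by_cases htop : (u : O) - 1 ∈ Ideal.span {π ^ (k + 1)}
    · rw [layerAut_eq_one hπ hl htop, AlgEquiv.one_apply, sub_self, map_zero]
      exact pow_nonneg (ν.nonneg _) _
    have hne : (u : O) - 1 ≠ 0 := fun h => htop (by rw [h]; exact zero_mem _)
    obtain ⟨j, w, hw⟩ := IsDiscreteValuationRing.eq_unit_mul_pow_irreducible hne hπ
    have hj : j ≤ k := by
      by_contra! hjk
      refine htop (Ideal.mem_span_singleton.2 ?_)
      rw [hw]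
      exact (pow_dvd_pow π (by omega)).mul_left _
    rw [absVal_layerAut_sub hπ hl hj w.isUnit hw,
      pow_le_pow_iff_right_of_lt_one₀ (absVal_lam_pos hπ hl) (absVal_lam_lt_one hπ hl),
      ← Nat.clog_le_iff_le_pow (by omega)]
    have hu' := mem_higherUnits.1 hu
    rw [Ideal.mem_span_singleton, hw] at hu'
    exact (pow_dvd_pow_iff hπ.ne_zero hπ.not_isUnit).1 ((w.isUnit.dvd_mul_left).1 hu')

end Fermat.Agent.LubinTate
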