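import Fermat.Agent.LubinTate.Ramification.Numbering
import Fermat.Agent.HasseArf.Rep

/-!
# The integers and the residues of an explicit layer

The elements of nonnegative valuation are the integral elements, and modulo positive valuation
they are fixed by the power `q ^ deg f`.
-/

set_option autoImplicit false
set_option linter.unusedSectionVars false

noncomputable section

open Polynomial IsLocalRing IntermediateField

namespace Fermat.Agent.LubinTate

variable {O : Type*} [CommRing O] [IsDomain O] [IsDiscreteValuationRing O]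
  [Finite (ResidueField O)] [IsAdicComplete (maximalIdeal O) O] {π : O}
  {K : Type*} [Field K] [Algebra O K] [IsFractionRing O K]
  {E : Type*} [Field E] [Algebra O E] [Algebra K E] [IsScalarTower O K E]
  {k : ℕ} {f : O[X]} {ν : AbsoluteValue E ℝ} {lam x₀ : E}
  (hπ : Irreducible π) (hl : IsExplicitLayer K π k f ν lam x₀)
include hπ hl

theorem layerVal_nonneg_iff_isIntegral {x : E} : 0 ≤ layerVal hπ hl x ↔ IsIntegral O x := by
  rw [layerVal_nonneg_iff]
  refine ⟨fun h => ?_, absVal_le_one_of_isIntegral hl.nonarch hl.le_one⟩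
  obtain ⟨P, rfl⟩ := exists_integral_combination hπ hl h
  have hlam : IsIntegral O lam := ⟨torsionPoly π k, (torsionPoly_facts hπ k).1, hl.aeval_lam⟩
  have hx : IsIntegral O x₀ := ⟨f, hl.monic, hl.aeval_root⟩
  exact IsIntegral.sum _ fun i _ =>
    (IsIntegral.of_mem_of_fg _ hlam.fg_adjoin_singleton _
      (aeval_mem_adjoin_singleton _ _)).mul (hx.pow _)

theorem layerVal_pos_iff {x : E} : 0 < layerVal hπ hl x ↔ ν x < 1 := by
  rcases eq_or_ne x 0 with rfl | hx
  · simp
  obtain ⟨n, hn⟩ := exists_zpow_eq hπ hl hx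
  rw [layerVal_apply, layerOrd_eq hπ hl hn, hn, ← WithTop.coe_zero, WithTop.coe_lt_coe,
    zpow_lt_one_iff_right_of_lt_one₀ (absVal_lam_pos hπ hl) (absVal_lam_lt_one hπ hl)]

/-- The residues are fixed by the power `q ^ deg f`. -/
theorem layerVal_pow_card_sub_pos {x : E} (hx : 0 ≤ layerVal hπ hl x) :
    0 < layerVal hπ hl (x ^ residueCard O ^ f.natDegree - x) := by
  classical
  set Q := residueCard O ^ f.natDegree
  obtain ⟨P, hP⟩ := exists_integral_combination hπ hl ((layerVal_nonneg_iff hπ hl).1 hx)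
  set R : O[X] := ∑ i : Fin f.natDegree, C ((P i).coeff 0) * X ^ (i : ℕ) with hR
  have hx₀ := absVal_root_le_one hπ hl
  have hr : 0 ≤ layerVal hπ hl (aeval x₀ R) :=
    (layerVal_nonneg_iff hπ hl).2 (absVal_aeval_le_one hl.nonarch hl.le_one R hx₀)
  have hsub : x - aeval x₀ R = lam * ∑ i, aeval lam (P i).divX * x₀ ^ (i : ℕ) := by
    rw [hP, hR, map_sum, ← Finset.sum_sub_distrib, Finset.mul_sum]
    refine Finset.sum_congr rfl fun i _ => ?_
    conv_lhs => rw [← X_mul_divX_add (P i)]
    simp only [map_add, map_mul, map_pow, aeval_X, aeval_C, coeff_add, coeff_X_mul_zero,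
      coeff_C_zero, zero_add]
    ring
  have hxr : 0 < layerVal hπ hl (x - aeval x₀ R) := by
    rw [layerVal_pos_iff, hsub, map_mul]
    refine (mul_le_of_le_one_right (ν.nonneg _) ?_).trans_lt (absVal_lam_lt_one hπ hl)
    refine absVal_sum_le hl.nonarch _ _ zero_le_one fun i _ => ?_
    rw [map_mul, map_pow]
    exact mul_le_one₀ (absVal_aeval_le_one hl.nonarch hl.le_one _ (absVal_lam_le_one hπ hl))
      (pow_nonneg (ν.nonneg _) _) (pow_le_one₀ (ν.nonneg _) hx₀)
  have hmap : f.map (residue O) ∣ (R ^ Q - R).map (residue O) := by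
    have := Fact.mk hl.irreducible
    have hmk : (f.map (residue O)).Monic := hl.monic.map _
    set k' := AdjoinRoot (f.map (residue O))
    have : Module.Finite (ResidueField O) k' := hmk.finite_adjoinRoot
    have : Finite k' := Module.finite_of_finite (ResidueField O)
    let := Fintype.ofFinite k'
    have hcard : Nat.card k' = Q := by
      rw [Module.natCard_eq_pow_finrank (K := ResidueField O),
        (AdjoinRoot.powerBasis' hmk).finrank, AdjoinRoot.powerBasis'_dim, hl.monic.natDegree_map]
      rfl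
    rw [← AdjoinRoot.mk_eq_zero, Polynomial.map_sub, Polynomial.map_pow, map_sub, map_pow,
      ← hcard, Nat.card_eq_fintype_card, FiniteField.pow_card, sub_self]
  have hrr : 0 < layerVal hπ hl (aeval x₀ R ^ Q - aeval x₀ R) := by
    obtain ⟨c, hc⟩ := hmap
    obtain ⟨c, rfl⟩ := Polynomial.map_surjective _ IsLocalRing.residue_surjective c
    rw [← Polynomial.map_mul, ← sub_eq_zero, ← Polynomial.map_sub, ← mem_span_C_iff hπ] at hc
    obtain ⟨d, hd⟩ := Ideal.mem_span_singleton'.1 hc
    have h := congrArg (aeval x₀) hd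
    simp only [map_mul, map_sub, map_pow, aeval_C, hl.aeval_root, zero_mul, sub_zero] at h
    rw [layerVal_pos_iff, ← h, map_mul]
    exact (mul_le_of_le_one_left (ν.nonneg _)
      (absVal_aeval_le_one hl.nonarch hl.le_one d hx₀)).trans_lt hl.lt_one
  rw [show x ^ Q - x = (x ^ Q - aeval x₀ R ^ Q) + ((aeval x₀ R ^ Q - aeval x₀ R) +
    -(x - aeval x₀ R)) by ring]
  refine AddValuation.map_lt_add _ (HasseArf.pos_pow_sub_pow _ hx hr hxr Q)
    (AddValuation.map_lt_add _ hrr ?_)
  rwa [AddValuation.map_neg]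

/-- The residue field is perfect. -/
theorem exists_layerVal_sub_pow_pos (p : ℕ) (hp : p.Prime)
    (hvp : 0 < layerVal hπ hl (p : E)) (x : E) (hx : 0 ≤ layerVal hπ hl x) :
    ∃ y, 0 < layerVal hπ hl (x - y ^ p) := by
  obtain ⟨p', r, hp', hr, hq, hmem⟩ := (isLubinTateBase hπ).exists_prime_pow
  have hvp' : 0 < layerVal hπ hl (p' : E) := by
    obtain ⟨c, hc⟩ := Ideal.mem_span_singleton'.1 hmem
    rw [layerVal_pos_iff, ← map_natCast (algebraMap O E), ← hc, map_mul, map_mul]
    exact (mul_le_of_le_one_left (ν.nonneg _) (hl.le_one c)).trans_lt hl.lt_one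
  obtain rfl := HasseArf.prime_eq_of_val_pos (layerVal hπ hl) hp hp' hvp hvp'
  have hm : 0 < f.natDegree := by
    have := hl.irreducible.natDegree_pos
    rwa [hl.monic.natDegree_map] at this
  have hdvd : p ∣ residueCard O ^ f.natDegree := by
    rw [hq, ← pow_mul]
    exact dvd_pow_self p (Nat.mul_pos (by omega) hm).ne'
  refine ⟨x ^ (residueCard O ^ f.natDegree / p), ?_⟩
  rw [← pow_mul, Nat.div_mul_cancel hdvd, AddValuation.map_sub_swap]
  exact layerVal_pow_card_sub_pos hπ hl hx

end Fermat.Agent.LubinTate
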