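import Fermat.Agent.HasseArf.UpperQuotient
import Mathlib.GroupTheory.QuotientGroup.Basic

/-!
# The ramification groups of a quotient given by a surjection

The groups are compatible with isomorphisms, and Herbrand's theorem holds for a surjection of
groups over an embedding of fields onto the fixed elements of its kernel.
-/

set_option autoImplicit false

noncomputable section

namespace Fermat.Agent.HasseArf

variable {G L G' L' : Type*} [Field L] [Group G] [MulSemiringAction G L] [Field L'] [Group G']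
  [MulSemiringAction G' L']

section Congr

variable (e : G ≃* G') (j : L ≃+* L') (hj : ∀ (g : G) (x : L), j (g • x) = e g • j x)
  (v : AddValuation L (WithTop ℤ)) (hv : ∀ (g : G) (x : L), v (g • x) = v x)
  (v' : AddValuation L' (WithTop ℤ)) (hv' : ∀ (g : G') (x : L'), v' (g • x) = v' x)
  (hvj : ∀ x, v' (j x) = v x)

include hj hvj

theorem lowerGroup_congr (i : ℕ) :
    lowerGroup v' hv' i = (lowerGroup v hv i).map e.toMonoidHom := by
  ext g'
  obtain ⟨g, rfl⟩ := e.surjective g'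
  rw [Subgroup.mem_map_equiv, e.symm_apply_apply]
  have key : ∀ x, v' (e g • j x - j x) = v (g • x - x) := fun x => by
    rw [← hj, ← map_sub, hvj]
  constructor
  · intro h x hx
    rw [← key]
    exact h (j x) (by rwa [hvj])
  · intro h y hy
    obtain ⟨x, rfl⟩ := j.surjective y
    rw [key]
    exact h x (by rwa [hvj] at hy)

theorem herbrandPhi_congr (u : ℝ) : herbrandPhi v' hv' u = herbrandPhi v hv u := by
  unfold herbrandPhi
  have hcard : ∀ i, Nat.card (lowerGroup v' hv' i) = Nat.card (lowerGroup v hv i) := fun i => by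
    rw [lowerGroup_congr e j hj v hv v' hv' hvj]
    exact Subgroup.card_map_of_injective e.injective
  exact Finset.sum_congr rfl fun i _ => by rw [hcard, hcard]

theorem upperGroup_congr (w : ℝ) :
    upperGroup v' hv' w = (upperGroup v hv w).map e.toMonoidHom := by
  simp only [upperGroup, lowerGroupReal, Subgroup.map_iSup, lowerGroup_congr e j hj v hv v' hv' hvj,
    herbrandPhi_congr e j hj v hv v' hv' hvj]

end Congr

/-- The value of an integral power. -/
theorem addVal_zpow (v : AddValuation L (WithTop ℤ)) {x : L} {a : ℤ}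
    (hx : v x = (a : WithTop ℤ)) (k : ℤ) : v (x ^ k) = ((k * a : ℤ) : WithTop ℤ) := by
  cases k with
  | ofNat n =>
    rw [Int.ofNat_eq_natCast, zpow_natCast, AddValuation.map_pow, hx, ← WithTop.coe_nsmul,
      nsmul_eq_mul]
  | negSucc n =>
    rw [zpow_negSucc, AddValuation.map_inv, AddValuation.map_pow, hx, ← WithTop.coe_nsmul,
      nsmul_eq_mul, ← WithTop.LinearOrderedAddCommGroup.coe_neg, Int.negSucc_eq, neg_mul]
    push_cast
    rfl

/-- A normalised valuation is determined by its integral elements. -/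
theorem addValuation_ext_of_nonneg {v w : AddValuation L (WithTop ℤ)}
    (hv : ∃ x, v x = ((1 : ℤ) : WithTop ℤ)) (hw : ∃ x, w x = ((1 : ℤ) : WithTop ℤ))
    (h : ∀ x, 0 ≤ v x ↔ 0 ≤ w x) : v = w := by
  obtain ⟨π, hπ⟩ := hv
  obtain ⟨ϖ, hϖ⟩ := hw
  have hne : ∀ {u : AddValuation L (WithTop ℤ)} {x : L} {a : ℤ},
      u x = (a : WithTop ℤ) → x ≠ 0 := fun {u x a} hx h0 => by
    rw [h0, AddValuation.map_zero] at hx
    exact WithTop.coe_ne_top hx.symm
  have hcoe : ∀ (u : AddValuation L (WithTop ℤ)) {x : L}, x ≠ 0 →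
      ∃ a : ℤ, u x = (a : WithTop ℤ) := fun u x hx =>
    ⟨(u x).untop ((AddValuation.ne_top_iff _).2 hx), (WithTop.coe_untop _ _).symm⟩
  -- the units agree
  have hunit : ∀ x, v x = ((0 : ℤ) : WithTop ℤ) → w x = ((0 : ℤ) : WithTop ℤ) := fun x hx => by
    obtain ⟨a, ha⟩ := hcoe w (hne hx)
    have h1 := (h x).1 hx.ge
    have h2 := (h (x ^ (-1 : ℤ))).1 (le_of_eq (by rw [addVal_zpow v hx]; rfl))
    rw [ha, ← WithTop.coe_zero, WithTop.coe_le_coe] at h1
    rw [addVal_zpow w ha, ← WithTop.coe_zero, WithTop.coe_le_coe] at h2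
    rw [ha, show a = 0 by omega]
  obtain ⟨a, ha⟩ := hcoe w (hne hπ)
  -- the uniformizers agree
  have hmul : ∀ {x : L} {n : ℤ}, v x = (n : WithTop ℤ) → w x = ((n * a : ℤ) : WithTop ℤ) := by
    intro x n hx
    have h0 : v (x * π ^ (-n)) = ((0 : ℤ) : WithTop ℤ) := by
      rw [AddValuation.map_mul, hx, addVal_zpow v hπ, ← WithTop.coe_add]
      congr 1
      ring
    obtain ⟨b, hb⟩ := hcoe w (hne hx)
    have h1 := hunit _ h0
    rw [AddValuation.map_mul, hb, addVal_zpow w ha, ← WithTop.coe_add, WithTop.coe_inj] at h1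
    rw [hb, WithTop.coe_inj]
    linarith
  obtain ⟨c, hc⟩ := hcoe v (hne hϖ)
  have hca : 1 = c * a := by
    have h1 := hmul hc
    rw [hϖ, WithTop.coe_inj] at h1
    exact h1
  have ha0 : 0 ≤ a := by
    have h1 := (h π).1 (hπ ▸ WithTop.coe_le_coe.2 (zero_le_one (α := ℤ)))
    rwa [ha, ← WithTop.coe_zero, WithTop.coe_le_coe] at h1
  have ha1 : a = 1 := by
    rcases Int.eq_one_or_neg_one_of_mul_eq_one ((mul_comm a c).trans hca.symm) with h1 | h1
    · exact h1
    · omega
  refine AddValuation.ext fun x => ?_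
  rcases eq_or_ne x 0 with rfl | hx
  · rw [AddValuation.map_zero, AddValuation.map_zero]
  obtain ⟨n, hn⟩ := hcoe v hx
  rw [hn, hmul hn, ha1, mul_one]

/-- An embedding onto the fixed elements of a kernel. -/
theorem exists_fixedEquiv (ψ : G →* G') (i : L' →+* L)
    (hi : ∀ (g : G) (y : L'), i (ψ g • y) = g • i y)
    (hfix : ∀ x : L, (∀ g ∈ ψ.ker, g • x = x) → x ∈ Set.range i) :
    ∃ j : FixedPoints.subfield ψ.ker L ≃+* L', ∀ x, i (j x) = x := by
  have hmem : ∀ y, i y ∈ FixedPoints.subfield ψ.ker L := fun y g => by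
    change (g : G) • i y = i y
    rw [← hi, show ψ (g : G) = 1 from g.2, one_smul]
  let k : L' →+* FixedPoints.subfield ψ.ker L := i.codRestrict _ hmem
  have hk : Function.Bijective k := by
    refine ⟨fun a b hab => i.injective (congrArg Subtype.val hab), fun x => ?_⟩
    obtain ⟨y, hy⟩ := hfix x.1 fun g hg => x.2 ⟨g, hg⟩
    exact ⟨y, Subtype.ext hy⟩
  exact ⟨(RingEquiv.ofBijective k hk).symm, fun x =>
    congrArg Subtype.val ((RingEquiv.ofBijective k hk).apply_symm_apply x)⟩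

variable [Finite G] [FaithfulSMul G L]
  (v : AddValuation L (WithTop ℤ)) (hv : ∀ (g : G) (x : L), v (g • x) = v x)
  (hπ : ∃ π : L, v π = ((1 : ℤ) : WithTop ℤ))
  (hperf : ∀ p : ℕ, p.Prime → 0 < v (p : L) → ∀ x, 0 ≤ v x → ∃ y, 0 < v (x - y ^ p))

include hv hπ hperf

theorem exists_fixed_multiple (H : Subgroup G) :
    ∃ (w : AddValuation (FixedPoints.subfield H L) (WithTop ℤ)) (d : ℕ), d ≠ 0 ∧
      (∀ x : FixedPoints.subfield H L, v (x : L) = d • w x) ∧
      ∃ x, w x = ((1 : ℤ) : WithTop ℤ) := by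
  obtain ⟨w, d, hd, hw⟩ := exists_fixed_valuation v hv H hπ hperf
  refine ⟨w, d, ?_, hd, hw⟩
  rintro rfl
  have h := hd 0
  rw [zero_smul, ZeroMemClass.coe_zero, AddValuation.map_zero] at h
  exact WithTop.top_ne_zero h

/-- The normalised valuation below. -/
theorem exists_valuation_of_surjective (ψ : G →* G') (i : L' →+* L)
    (hi : ∀ (g : G) (y : L'), i (ψ g • y) = g • i y)
    (hfix : ∀ x : L, (∀ g ∈ ψ.ker, g • x = x) → x ∈ Set.range i) :
    ∃ v' : AddValuation L' (WithTop ℤ), (∀ y, 0 ≤ v' y ↔ 0 ≤ v (i y)) ∧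
      ∃ y, v' y = ((1 : ℤ) : WithTop ℤ) := by
  obtain ⟨j, hji⟩ := exists_fixedEquiv ψ i hi hfix
  obtain ⟨w, d, hd0, hd, x, hx⟩ := exists_fixed_multiple v hv hπ hperf ψ.ker
  refine ⟨w.comap j.symm.toRingHom, fun y => ?_, j x, ?_⟩
  · change 0 ≤ w (j.symm y) ↔ _
    conv_rhs => rw [← j.apply_symm_apply y, hji, hd]
    conv_lhs => rw [← withTop_nsmul_le hd0, smul_zero]
  · change w (j.symm (j x)) = _
    rw [j.symm_apply_apply, hx]

/-- **Herbrand's theorem for a surjection.** -/
theorem upperGroup_map_surjective (ψ : G →* G') (hψ : Function.Surjective ψ) (i : L' →+* L)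
    (hi : ∀ (g : G) (y : L'), i (ψ g • y) = g • i y)
    (hfix : ∀ x : L, (∀ g ∈ ψ.ker, g • x = x) → x ∈ Set.range i)
    (v' : AddValuation L' (WithTop ℤ)) (hv' : ∀ (g : G') (x : L'), v' (g • x) = v' x)
    (hπ' : ∃ y, v' y = ((1 : ℤ) : WithTop ℤ)) (hnn : ∀ y, 0 ≤ v' y ↔ 0 ≤ v (i y))
    {t : ℝ} (ht : 0 ≤ t) :
    upperGroup v' hv' t = (upperGroup v hv t).map ψ := by
  set H := ψ.ker
  obtain ⟨j, hji⟩ := exists_fixedEquiv ψ i hi hfix
  obtain ⟨w, d, hd0, hd, hw⟩ := exists_fixed_multiple v hv hπ hperf H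
  have hwj : v'.comap j.toRingHom = w := by
    refine addValuation_ext_of_nonneg ?_ hw fun x => ?_
    · obtain ⟨y, hy⟩ := hπ'
      exact ⟨j.symm y, by change v' (j (j.symm y)) = _; rw [j.apply_symm_apply, hy]⟩
    · change 0 ≤ v' (j x) ↔ _
      rw [hnn, hji, hd]
      conv_rhs => rw [← withTop_nsmul_le hd0, smul_zero]
  let e : G ⧸ H ≃* G' := QuotientGroup.quotientKerEquivOfSurjective ψ hψ
  have hj : ∀ (σ : G ⧸ H) (x : FixedPoints.subfield H L), j (σ • x) = e σ • j x := by
    intro σ x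
    obtain ⟨g, rfl⟩ := QuotientGroup.mk_surjective σ
    refine i.injective ?_
    rw [show e (g : G ⧸ H) = ψ g from rfl, hi, hji, hji, coe_quotient_smul]
  have hvw : ∀ x, v' (j x) = w x := fun x => by rw [← hwj]; rfl
  have hwinv : ∀ (σ : G ⧸ H) (x : FixedPoints.subfield H L), w (σ • x) = w x := fun σ x => by
    rw [← hvw, hj, hv', hvw]
  rw [upperGroup_congr e j hj w hwinv v' hv' hvw,
    upperGroup_quotient v hv H hπ hperf w hwinv hd hw ht, Subgroup.map_map]
  rfl

end Fermat.Agent.HasseArf
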