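import Fermat.Agent.LubinTate.Ramification.Embedding
import Fermat.Agent.LubinTate.Ramification.Residue
import Fermat.Agent.LubinTate.Ramification.Transport
import Fermat.Agent.HasseArf.Theorem

/-!
# The reciprocity map and the upper numbering

For a finite abelian extension `E` of a completion the image of `U ^ (n)` under the reciprocity map
is the upper ramification group `G ^ n`, the valuation of `E` being the normalised one whose
integral elements are those integral over the integers of the completion.
-/

set_option autoImplicit false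
set_option linter.unusedSectionVars false

noncomputable section

open NumberField IsDedekindDomain IsLocalRing Polynomial IntermediateField
open FA.LocalCFT
open scoped Valued

namespace Fermat.Agent.LubinTate

universe u

attribute [local instance] FA.QuadFormsNF.charZero_completion
attribute [local instance] isGalois_subAb normal_subAb

variable {K : Type u} [Field K] [NumberField K] {v : HeightOneSpectrum (𝓞 K)}

local notation "Kv" => HeightOneSpectrum.adicCompletion K v
local notation "Ov" => HeightOneSpectrum.adicCompletionIntegers K v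
local notation "Ab" => abClosure (HeightOneSpectrum.adicCompletion K v)

variable (E : IntermediateField (v.adicCompletion K) (abClosure (v.adicCompletion K)))
  [FiniteDimensional (v.adicCompletion K) E]

/-- The explicit layer over `E`, with the restriction. -/
theorem exists_layer_restriction {π : Ov} (hπ : Irreducible π) :
    ∃ (B : IntermediateField Kv Ab) (k : ℕ) (f : Ov[X]) (ν : AbsoluteValue B ℝ) (lam x₀ : B)
      (hl : IsExplicitLayer Kv π k f ν lam x₀) (i : E →ₐ[Kv] B)
      (ψ : (B ≃ₐ[Kv] B) →* (E ≃ₐ[Kv] E)), Function.Surjective ψ ∧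
      (∀ (g : B ≃ₐ[Kv] B) (y : E), i (ψ g • y) = g • i y) ∧
      (∀ x : B, (∀ g ∈ ψ.ker, g • x = x) → x ∈ Set.range i) ∧
      ∀ u : Ovˣ, ψ (layerAut hπ hl u⁻¹) = unitArtin E u := by
  obtain ⟨B, k, f, ν, lam, x₀, hl, hEB, hu⟩ := exists_layer_ge hπ E
  let i : E →ₐ[Kv] B := IntermediateField.inclusion hEB
  let := i.toRingHom.toAlgebra
  have : IsScalarTower Kv E B := IsScalarTower.of_algebraMap_eq fun x => (i.commutes x).symm
  have hfd := finiteDimensional_layer hπ hl
  have hi : ∀ (g : B ≃ₐ[Kv] B) (y : E),
      i (AlgEquiv.restrictNormalHom E g • y) = g • i y := fun g y =>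
    AlgEquiv.restrictNormal_commutes g E y
  refine ⟨B, k, f, ν, lam, x₀, hl, i, AlgEquiv.restrictNormalHom E,
    AlgEquiv.restrictNormalHom_surjective B, hi, fun x hx => ?_, fun u => ?_⟩
  · set F := IntermediateField.restrict hEB
    have hxF : x ∈ F := by
      rw [← IsGalois.fixedField_fixingSubgroup F, IntermediateField.mem_fixedField_iff]
      intro g hg
      refine hx g (MonoidHom.mem_ker.2 (AlgEquiv.ext fun y => i.toRingHom.injective ?_))
      exact (hi g y).trans ((IntermediateField.mem_fixingSubgroup_iff _ _).1 hg _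
        ((IntermediateField.mem_restrict hEB (i y)).2 y.2))
    exact ⟨⟨(x : Ab), (IntermediateField.mem_restrict hEB x).1 hxF⟩, Subtype.ext rfl⟩
  · rw [← hu]
    refine AlgEquiv.ext fun y => Subtype.ext ?_
    have h := congrArg Subtype.val (hi (unitArtin B u) y)
    refine h.trans ((coe_unitArtin B u (i y)).trans ?_)
    exact (coe_unitArtin E u y).symm

/-- **The normalised valuation** of a finite abelian extension. -/
theorem exists_integral_valuation :
    ∃ w : AddValuation E (WithTop ℤ), (∀ y, 0 ≤ w y ↔ IsIntegral Ov y) ∧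
      ∃ y, w y = ((1 : ℤ) : WithTop ℤ) := by
  obtain ⟨π, hπ⟩ := IsDiscreteValuationRing.exists_irreducible Ov
  obtain ⟨B, k, f, ν, lam, x₀, hl, i, ψ, -, hi, hfix, -⟩ := exists_layer_restriction E hπ
  have := finiteDimensional_layer hπ hl
  obtain ⟨w, hw, hw1⟩ := HasseArf.exists_valuation_of_surjective (layerVal hπ hl)
    (layerVal_invariant hπ hl) ⟨lam, layerVal_lam hπ hl⟩ (exists_layerVal_sub_pow_pos hπ hl) ψ
    i.toRingHom hi hfix
  refine ⟨w, fun y => ?_, hw1⟩
  rw [hw, layerVal_nonneg_iff_isIntegral]
  exact isIntegral_algHom_iff (i.restrictScalars Ov) i.toRingHom.injective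

variable {E} (w : AddValuation E (WithTop ℤ))
  (hint : ∀ y, 0 ≤ w y ↔ IsIntegral (v.adicCompletionIntegers K) y)
  (hone : ∃ y, w y = ((1 : ℤ) : WithTop ℤ))
include hint hone

/-- The normalised valuation is invariant. -/
theorem integralVal_invariant (σ : E ≃ₐ[Kv] E) (y : E) : w (σ • y) = w y := by
  have h : w.comap (σ : E →+* E) = w := by
    refine HasseArf.addValuation_ext_of_nonneg ?_ hone fun x => ?_
    · obtain ⟨z, hz⟩ := hone
      exact ⟨σ.symm z, by change w (σ (σ.symm z)) = _; rw [σ.apply_symm_apply, hz]⟩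
    · change 0 ≤ w (σ x) ↔ _
      rw [hint, hint]
      exact isIntegral_algHom_iff (σ.toAlgHom.restrictScalars Ov) σ.injective
  exact DFunLike.congr_fun h y

/-- **The reciprocity map carries the higher units onto the upper ramification groups.** -/
theorem upperGroup_eq_map_unitArtin (hw : ∀ (σ : E ≃ₐ[Kv] E) y, w (σ • y) = w y) {π : Ov}
    (hπ : Irreducible π) {t : ℝ} (ht : 0 ≤ t) :
    HasseArf.upperGroup w hw t = (higherUnits π ⌈t⌉₊).map (unitArtin E) := by
  obtain ⟨B, k, f, ν, lam, x₀, hl, i, ψ, hψ, hi, hfix, hu⟩ := exists_layer_restriction E hπ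
  have := finiteDimensional_layer hπ hl
  rw [HasseArf.upperGroup_map_surjective (layerVal hπ hl) (layerVal_invariant hπ hl)
    ⟨lam, layerVal_lam hπ hl⟩ (exists_layerVal_sub_pow_pos hπ hl) ψ hψ i.toRingHom hi hfix w hw
    hone (fun y => by
      rw [hint, layerVal_nonneg_iff_isIntegral]
      exact (isIntegral_algHom_iff (i.restrictScalars Ov) i.toRingHom.injective).symm) ht,
    upperGroup_eq hπ hl ht, Subgroup.map_map]
  ext g
  constructor
  · rintro ⟨u, hu', rfl⟩
    exact ⟨u⁻¹, inv_mem hu', by rw [← hu, inv_inv]; rfl⟩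
  · rintro ⟨u, hu', rfl⟩
    exact ⟨u⁻¹, inv_mem hu', hu u⟩

/-- The inertia group is the image of the units. -/
theorem lowerGroup_zero_eq_range (hw : ∀ (σ : E ≃ₐ[Kv] E) y, w (σ • y) = w y) :
    HasseArf.lowerGroup w hw 0 = (unitArtin E).range := by
  obtain ⟨π, hπ⟩ := IsDiscreteValuationRing.exists_irreducible Ov
  have h := upperGroup_eq_map_unitArtin w hint hone hw hπ (t := 0) le_rfl
  have h0 : HasseArf.herbrandPhi w hw 0 = 0 := by simp [HasseArf.herbrandPhi]
  rw [Nat.ceil_zero, higherUnits_zero, ← MonoidHom.range_eq_map, ← h0,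
    HasseArf.upperGroup_herbrandPhi w hw le_rfl, HasseArf.lowerGroupReal, Nat.ceil_zero] at h
  exact h

/-- **The conductor of a finite abelian extension**: `G ^ n` is trivial exactly when `U ^ (n)`
consists of norms. -/
theorem upperGroup_eq_bot_iff (hw : ∀ (σ : E ≃ₐ[Kv] E) y, w (σ • y) = w y) {π : Ov}
    (hπ : Irreducible π) (n : ℕ) :
    HasseArf.upperGroup w hw (n : ℝ) = ⊥ ↔
      (higherUnits π n).map (Units.map (algebraMap Ov Kv).toMonoidHom) ≤ normGroup Kv E := by
  rw [upperGroup_eq_map_unitArtin w hint hone hw hπ (Nat.cast_nonneg n), Nat.ceil_natCast,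
    Subgroup.map_eq_bot_iff, Subgroup.map_le_iff_le_comap]
  suffices h : (unitArtin E).ker =
      (normGroup Kv E).comap (Units.map (algebraMap Ov Kv).toMonoidHom) by rw [h]
  ext u
  rw [Subgroup.mem_comap, ← localAbArtin_mem_fixing_iff v E,
    ← IntermediateField.restrictNormalHom_ker]
  rfl

/-- The jumps of the upper numbering are integers: `G ^ t` depends only on `⌈t⌉`. -/
theorem upperGroup_ceil (hw : ∀ (σ : E ≃ₐ[Kv] E) y, w (σ • y) = w y) {t : ℝ} (ht : 0 ≤ t) :
    HasseArf.upperGroup w hw t = HasseArf.upperGroup w hw (⌈t⌉₊ : ℝ) := by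
  obtain ⟨π, hπ⟩ := IsDiscreteValuationRing.exists_irreducible Ov
  rw [upperGroup_eq_map_unitArtin w hint hone hw hπ ht,
    upperGroup_eq_map_unitArtin w hint hone hw hπ (Nat.cast_nonneg _), Nat.ceil_natCast]

end Fermat.Agent.LubinTate
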